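import Fermat.Agent.FerreroAbelian.Branch

/-!
# The exact size of the values on a twisted branch

If the first unit coefficient of the system of a branch stands at `lam` then the values at
`θ(u) ζ`, `ζ` of high `p`-power order, have absolute value `‖ζ - 1‖ ^ (lam - 1)`
(`hasVal_of_isLam`); congruent characters have the same `lam` (`IsLam.congr`).
-/

set_option autoImplicit false
set_option linter.unusedSectionVars false
set_option linter.style.haveILetI false

noncomputable section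

open Polynomial
open FA.IwasawaMinus (IsGen theta theta_pow_card theta_pow_prime_pow norm_eq_one_of_pow phi_pos
  norm_sub_one_pow norm_sub_one_lt norm_p exists_pow_genUnit genUnit genUnit_val)
open FA.FerreroAbelian (intR maxId thetaO sysO cF poly bv norm_intR_le mem_maxId)

namespace FA.KidaFormula

variable {p : ℕ} [hp : Fact p.Prime] {d g : ℕ} [NeZero d]

/-- The first unit coefficient of the systems is the one of degree `lam`. -/
def IsLam (χ : ZMod d → intR p) (g : ℕ) (u : (ZMod p)ˣ) (lam : ℕ) : Prop :=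
  ∃ n₀, ∃ δ < (1 : ℝ), 0 ≤ δ ∧ ∀ n, n₀ ≤ n →
    ‖((sysO χ g u n).coeff lam : PadicAlgCl p)‖ = 1 ∧
      ∀ j < lam, ‖((sysO χ g u n).coeff j : PadicAlgCl p)‖ ≤ δ

/-- The values at the points of high level have absolute value `‖ζ - 1‖ ^ l`. -/
def HasVal (χ : ZMod d → PadicAlgCl p) (g : ℕ) (u : (ZMod p)ˣ) (l : ℤ) : Prop :=
  ∀ᶠ k in Filter.atTop, ∀ ζ : PadicAlgCl p, IsPrimitiveRoot ζ (p ^ (k + 1)) →
    ‖bv d p g (k + 1) χ (theta u * ζ)‖ = ‖ζ - 1‖ ^ l

theorem norm_sub_one_pos {k : ℕ} {ζ : PadicAlgCl p} (hζ : IsPrimitiveRoot ζ (p ^ (k + 1))) :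
    0 < ‖ζ - 1‖ :=
  norm_pos_iff.2 (sub_ne_zero.2 (hζ.ne_one (Nat.one_lt_pow k.succ_ne_zero hp.out.one_lt)))

/-- The exponent is unique. -/
theorem HasVal.unique {χ : ZMod d → PadicAlgCl p} {u : (ZMod p)ˣ} {l l' : ℤ}
    (h : HasVal χ g u l) (h' : HasVal χ g u l') : l = l' := by
  obtain ⟨k, h1, h2⟩ := (h.and h').exists
  haveI : NeZero (p ^ (k + 1)) := ⟨pow_ne_zero _ hp.out.ne_zero⟩
  obtain ⟨ζ, hζ⟩ := HasEnoughRootsOfUnity.exists_primitiveRoot (PadicAlgCl p) (p ^ (k + 1))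
  exact zpow_right_injective₀ (norm_sub_one_pos hζ) (norm_sub_one_lt hζ).ne
    ((h1 ζ hζ).symm.trans (h2 ζ hζ))

/-- Two roots of the same order. -/
theorem norm_sub_one_eq {k : ℕ} {ζ ζ' : PadicAlgCl p} (hζ : IsPrimitiveRoot ζ (p ^ (k + 1)))
    (hζ' : IsPrimitiveRoot ζ' (p ^ (k + 1))) : ‖ζ - 1‖ = ‖ζ' - 1‖ :=
  (pow_left_inj₀ (norm_nonneg _) (norm_nonneg _) (phi_pos k).ne').1
    ((norm_sub_one_pow hζ).trans (norm_sub_one_pow hζ').symm)

/-- The regulariser has size `‖ζ - 1‖`. -/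
theorem norm_regulariser (hp2 : p ≠ 2) (hg : IsGen p g) (hd : d.Coprime p) {k s : ℕ}
    (hs : (cF p d : ZMod (p ^ (k + 1 + 1))) = (g : ZMod (p ^ (k + 1 + 1))) ^ s) (u : (ZMod p)ˣ)
    {ζ : PadicAlgCl p} (hζ : IsPrimitiveRoot ζ (p ^ (k + 1))) :
    ‖(cF p d : PadicAlgCl p) * (theta u * ζ) ^ s - 1‖ = ‖ζ - 1‖ := by
  have hord : orderOf (g : ZMod (p ^ (0 + 1))) = (p - 1) * p ^ 0 := hg.2 0
  have hord1 : orderOf (g : ZMod (p ^ (1 + 1))) = (p - 1) * p ^ 1 := hg.2 1
  -- `p - 1` divides `s`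
  have h1 : p - 1 ∣ s := by
    have h := congrArg (ZMod.castHom (pow_dvd_pow p (by omega : 0 + 1 ≤ k + 1 + 1))
      (ZMod (p ^ (0 + 1)))) hs
    rw [map_natCast, map_pow, map_natCast] at h
    rw [show p - 1 = (p - 1) * p ^ 0 by rw [pow_zero, mul_one], ← hord,
      orderOf_dvd_iff_pow_eq_one, ← h, cF]
    push_cast
    rw [show ((p : ℕ) : ZMod (p ^ (0 + 1))) = 0 from
      (ZMod.natCast_eq_zero_iff _ _).2 (by simp), zero_mul, add_zero]
  -- `p` does not divide `s`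
  have h2 : ¬ p ∣ s := fun hps => by
    have hcop : Nat.Coprime (p - 1) p := Nat.coprime_comm.1 (hp.out.coprime_iff_not_dvd.2 fun h =>
      by
        have := Nat.le_of_dvd (Nat.sub_pos_of_lt hp.out.one_lt) h
        have := hp.out.one_lt
        omega)
    have h := congrArg (ZMod.castHom (pow_dvd_pow p (by omega : 1 + 1 ≤ k + 1 + 1))
      (ZMod (p ^ (1 + 1)))) hs
    rw [map_natCast, map_pow, map_natCast] at h
    have h3 : (g : ZMod (p ^ (1 + 1))) ^ s = 1 := by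
      rw [← orderOf_dvd_iff_pow_eq_one, hord1, pow_one]
      exact hcop.mul_dvd_of_dvd_of_dvd h1 hps
    rw [h3, cF, Nat.cast_add, Nat.cast_one, add_eq_left, ZMod.natCast_eq_zero_iff, pow_succ,
      pow_one, Nat.mul_dvd_mul_iff_left hp.out.pos] at h
    exact hp.out.coprime_iff_not_dvd.1 (Nat.coprime_comm.1 hd) h
  have hθ : theta u ^ s = 1 := by
    obtain ⟨r, rfl⟩ := h1
    rw [pow_mul, theta_pow_card, one_pow]
  have hζs : IsPrimitiveRoot (ζ ^ s) (p ^ (k + 1)) :=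
    hζ.pow_of_coprime s ((Nat.coprime_comm.1 (hp.out.coprime_iff_not_dvd.2 h2)).pow_right _)
  have hρ := norm_sub_one_pow hζ
  have hφ : 1 < (p - 1) * p ^ k := lt_of_lt_of_le
    (show 1 < p - 1 by have := hp.out.two_le; omega)
    (Nat.le_mul_of_pos_right _ (pow_pos hp.out.pos k))
  have hsmall : ‖((cF p d : PadicAlgCl p) - 1) * ζ ^ s‖ < ‖ζ ^ s - 1‖ := by
    rw [norm_sub_one_eq hζs hζ, norm_mul,
      norm_eq_one_of_pow hζs.pow_eq_one (pow_ne_zero _ hp.out.ne_zero), mul_one]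
    have e : ((cF p d : ℕ) : PadicAlgCl p) - 1 = (p : PadicAlgCl p) * (d : PadicAlgCl p) := by
      rw [cF]
      push_cast
      ring
    rw [e, norm_mul, norm_p, FA.IwasawaMinus.norm_natCast_of_not_dvd
      (hp.out.coprime_iff_not_dvd.1 (Nat.coprime_comm.1 hd)), mul_one, ← hρ]
    exact (pow_lt_pow_right_of_lt_one₀ (norm_sub_one_pos hζ) (norm_sub_one_lt hζ) hφ).trans_le
      (le_of_eq (pow_one _))
  rw [mul_pow, hθ, one_mul, show (cF p d : PadicAlgCl p) * ζ ^ s - 1 =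
    ((cF p d : PadicAlgCl p) - 1) * ζ ^ s + (ζ ^ s - 1) by ring,
    IsUltrametricDist.norm_add_eq_max_of_norm_ne_norm hsmall.ne, max_eq_right hsmall.le,
    norm_sub_one_eq hζs hζ]

/-- **The size of the values.** -/
theorem hasVal_of_isLam (hp2 : p ≠ 2) (hg : IsGen p g) (hd : d.Coprime p) {χ : ZMod d → intR p}
    {u : (ZMod p)ˣ} {lam : ℕ} (h : IsLam χ g u lam) :
    HasVal (fun a => (χ a : PadicAlgCl p)) g u ((lam : ℤ) - 1) := by
  obtain ⟨n₀, δ, hδ1, hδ0, h⟩ := h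
  have hπ0 : (0 : ℝ) < (p : ℝ)⁻¹ := inv_pos.2 (by exact_mod_cast hp.out.pos)
  obtain ⟨N, hN⟩ := exists_pow_lt_of_lt_one (pow_pos hπ0 lam) hδ1
  refine Filter.eventually_atTop.2 ⟨max n₀ N, fun k hk ζ hζ => ?_⟩
  obtain ⟨hmain, hbelow⟩ := h (k + 1) (((le_max_left _ _).trans hk).trans k.le_succ)
  set ρ := ‖ζ - 1‖ with hρ
  have hρφ := norm_sub_one_pow hζ
  have hρ1 := norm_sub_one_lt hζ
  have hρ0 : 0 < ρ := norm_sub_one_pos hζ
  have hδρ : δ < ρ ^ lam := by
    refine lt_of_pow_lt_pow_left₀ ((p - 1) * p ^ k) (by positivity) ?_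
    rw [← pow_mul, mul_comm lam, pow_mul ρ, hρ, hρφ]
    refine (pow_le_pow_of_le_one hδ0 hδ1.le ?_).trans_lt hN
    calc N ≤ k := (le_max_right _ _).trans hk
      _ ≤ p ^ k := (Nat.lt_pow_self hp.out.one_lt).le
      _ ≤ (p - 1) * p ^ k := Nat.le_mul_of_pos_left _ (Nat.sub_pos_of_lt hp.out.one_lt)
  set f := sysO χ g u (k + 1) with hf
  set x := ζ - 1 with hx
  have hrest : ‖eval₂ (intR p).subtype x (f.erase lam)‖ < ρ ^ lam := by
    refine lt_of_le_of_lt (b := max δ (ρ ^ (lam + 1))) ?_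
      (max_lt hδρ (pow_lt_pow_right_of_lt_one₀ hρ0 hρ1 (lt_add_one lam)))
    rw [eval₂_eq_sum_range]
    refine IsUltrametricDist.norm_sum_le_of_forall_le_of_nonneg
      (le_max_of_le_left hδ0) fun j _ => ?_
    rw [norm_mul, norm_pow, coeff_erase, Subring.coe_subtype]
    split_ifs with hj
    · rw [ZeroMemClass.coe_zero, norm_zero, zero_mul]
      exact le_max_of_le_left hδ0
    rcases lt_or_gt_of_ne hj with hlt | hgt
    · exact (mul_le_of_le_one_right (norm_nonneg _) (pow_le_one₀ (norm_nonneg _) hρ1.le)).trans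
        ((hbelow j hlt).trans (le_max_left _ _))
    · exact (mul_le_of_le_one_left (by positivity) (norm_intR_le _)).trans
        ((pow_le_pow_of_le_one (norm_nonneg _) hρ1.le hgt).trans (le_max_right _ _))
  have hval : ‖eval₂ (intR p).subtype x f‖ = ρ ^ lam := by
    have hlead : ‖eval₂ (intR p).subtype x (monomial lam (f.coeff lam))‖ = ρ ^ lam := by
      rw [eval₂_monomial, norm_mul, norm_pow, Subring.coe_subtype, hmain, one_mul]
    conv_lhs => rw [← monomial_add_erase f lam, eval₂_add]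
    rw [IsUltrametricDist.norm_add_eq_max_of_norm_ne_norm (hlead ▸ hrest.ne'), hlead,
      max_eq_left hrest.le]
  set η := theta u * ζ with hη
  have hev : eval₂ (intR p).subtype x f =
      (poly (fun a => (χ a : PadicAlgCl p)) p g (k + 1)).eval η := by
    rw [hf, sysO, eval₂_comp, ← eval_map, FA.FerreroAbelian.poly_map, eval₂_mul, eval₂_C,
      eval₂_add, eval₂_one, eval₂_X, hx, add_sub_cancel]
    rfl
  have hηφ : η ^ ((p - 1) * p ^ (k + 1)) = 1 := by
    rw [hη, mul_pow, pow_mul (theta u), theta_pow_card, one_pow, one_mul, mul_comm (p - 1),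
      pow_mul, hζ.pow_eq_one, one_pow]
  have hη1 : η ≠ 1 := fun e => by
    have e' := congrArg (fun t => t ^ p ^ (k + 1)) e
    simp only [hη, mul_pow, hζ.pow_eq_one, mul_one, one_pow, theta_pow_prime_pow] at e'
    rw [hη, e', one_mul] at e
    exact hζ.ne_one (Nat.one_lt_pow k.succ_ne_zero hp.out.one_lt) e
  obtain ⟨s, -, hs⟩ := exists_pow_genUnit hg (k + 1) ((ZMod.isUnit_iff_coprime (cF p d) _).2
    (Nat.Coprime.pow_right _ (Nat.coprime_comm.1
      (hp.out.coprime_iff_not_dvd.2 FA.FerreroAbelian.not_dvd_cF)))).unit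
  have hs' : (cF p d : ZMod (p ^ (k + 1 + 1))) = (g : ZMod _) ^ s := by
    rw [← genUnit_val hg (k + 1), ← Units.val_pow_eq_pow_val, hs, IsUnit.unit_spec]
  have hpv := FA.FerreroAbelian.poly_value hg hd (fun a => (χ a : PadicAlgCl p)) hηφ hη1 hs'
  have hN : ((d * p ^ (k + 1 + 1) : ℕ) : PadicAlgCl p) ≠ 0 :=
    Nat.cast_ne_zero.2 (Nat.mul_ne_zero (NeZero.ne d) (pow_ne_zero _ hp.out.ne_zero))
  have hid : η ^ s * (poly (fun a => (χ a : PadicAlgCl p)) p g (k + 1)).eval η =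
      2 * ((cF p d : PadicAlgCl p) * η ^ s - 1) *
        bv d p g (k + 1) (fun a => (χ a : PadicAlgCl p)) η := by
    rw [bv, mul_div_assoc', eq_div_iff hN]
    linear_combination hpv
  have h2 : ‖(2 : PadicAlgCl p)‖ = 1 := by
    exact_mod_cast FA.IwasawaMinus.norm_natCast_of_not_dvd (p := p) (k := 2)
      (fun e => hp2 ((Nat.prime_dvd_prime_iff_eq hp.out Nat.prime_two).1 e))
  have hn := congrArg (fun t => ‖t‖) hid
  have hreg : ‖(cF p d : PadicAlgCl p) * η ^ s - 1‖ = ρ := norm_regulariser hp2 hg hd hs' u hζ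
  simp only [norm_mul, norm_pow, norm_eq_one_of_pow hηφ (phi_pos (k + 1)).ne', one_pow, one_mul,
    ← hev, hval, h2, hreg] at hn
  rw [zpow_sub₀ hρ0.ne', zpow_natCast, zpow_one, hn, mul_div_cancel_left₀ _ hρ0.ne']

/-- **Congruent characters have the same first unit coefficient.** -/
theorem IsLam.congr {χ χ' : ZMod d → intR p} {u : (ZMod p)ˣ} {lam lam' : ℕ}
    (hcong : ∀ a, χ a - χ' a ∈ maxId p) (h : IsLam χ g u lam) (h' : IsLam χ' g u lam') :
    lam = lam' := by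
  obtain ⟨n₀, δ, hδ, -, h⟩ := h
  obtain ⟨n₁, δ', hδ', -, h'⟩ := h'
  obtain ⟨h1, h2⟩ := h (max n₀ n₁) (le_max_left _ _)
  obtain ⟨h3, h4⟩ := h' (max n₀ n₁) (le_max_right _ _)
  have hmap : (sysO χ g u (max n₀ n₁)).map (Ideal.Quotient.mk (maxId p)) =
      (sysO χ' g u (max n₀ n₁)).map (Ideal.Quotient.mk (maxId p)) := by
    simp only [sysO, map_comp, FA.FerreroAbelian.poly_map]
    congr 2
    funext a
    exact (Ideal.Quotient.eq).2 (hcong a)
  have hcoef : ∀ j, (‖((sysO χ g u (max n₀ n₁)).coeff j : PadicAlgCl p)‖ < 1 ↔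
      ‖((sysO χ' g u (max n₀ n₁)).coeff j : PadicAlgCl p)‖ < 1) := fun j => by
    have e := congrArg (fun f => coeff f j) hmap
    simp only [coeff_map] at e
    rw [← mem_maxId, ← mem_maxId, ← Ideal.Quotient.eq_zero_iff_mem, e,
      Ideal.Quotient.eq_zero_iff_mem]
  rcases lt_trichotomy lam lam' with hlt | heq | hgt
  · exact absurd ((hcoef lam).2 ((h4 lam hlt).trans_lt hδ')) (by rw [h1]; exact lt_irrefl _)
  · exact heq
  · exact absurd ((hcoef lam').1 ((h2 lam' hgt).trans_lt hδ)) (by rw [h3]; exact lt_irrefl _)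

/-- **Every branch of odd parity has one.** -/
theorem exists_isLam (hp2 : p ≠ 2) (hg : IsGen p g) (hd : d.Coprime p) (χ : ZMod d → intR p)
    (h1 : χ 1 = 1) (hmul : ∀ a b, χ (a * b) = χ a * χ b) (u : (ZMod p)ˣ)
    (hodd : thetaO u ^ ((p - 1) / 2) * χ (-1) = -1) : ∃ lam, IsLam χ g u lam := by
  obtain ⟨n₀, lam, δ, h1', h2', h⟩ :=
    FA.FerreroAbelian.exists_shape hp2 hg hd χ h1 hmul u hodd
  exact ⟨lam, n₀, δ, h1', h2', h⟩

end FA.KidaFormula
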