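import Fermat.Agent.FerreroAbelian.Product

/-!
# Characters at coprime levels

A character modulo `A B`, `A` and `B` coprime, is the product of its parts modulo `A` and modulo `B`
(`combine_parts`); the product of two primitive characters is primitive (`isPrimitive_combine`).
-/

set_option autoImplicit false
set_option linter.unusedSectionVars false
set_option linter.style.haveILetI false

noncomputable section

open DirichletCharacter
open FA.FerreroAbelian (leftPart)

namespace FA.KidaFormula

variable {A B : ℕ} [NeZero A] [NeZero B]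

instance neZero_prod : NeZero (A * B) := ⟨Nat.mul_ne_zero (NeZero.ne A) (NeZero.ne B)⟩

/-- The product of two characters at coprime levels. -/
def combine (h : A.Coprime B) (ψ : DirichletCharacter ℂ A) (ξ : DirichletCharacter ℂ B) :
    DirichletCharacter ℂ (A * B) where
  toFun x := ψ (ZMod.chineseRemainder h x).1 * ξ (ZMod.chineseRemainder h x).2
  map_one' := by simp only [map_one, Prod.fst_one, Prod.snd_one, mul_one]
  map_mul' x y := by simp only [map_mul, Prod.fst_mul, Prod.snd_mul]; ring
  map_nonunit' x hx := by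
    by_cases h1 : IsUnit (ZMod.chineseRemainder h x).1
    · have h2 : ¬ IsUnit (ZMod.chineseRemainder h x).2 := fun h2 => hx (by
        have h3 := (Prod.isUnit_iff.2 ⟨h1, h2⟩).map (ZMod.chineseRemainder h).symm
        rwa [RingEquiv.symm_apply_apply] at h3)
      rw [ξ.map_nonunit h2, mul_zero]
    · rw [ψ.map_nonunit h1, zero_mul]

theorem combine_apply (h : A.Coprime B) (ψ : DirichletCharacter ℂ A) (ξ : DirichletCharacter ℂ B)
    (x : ZMod (A * B)) :
    combine h ψ ξ x = ψ (ZMod.chineseRemainder h x).1 * ξ (ZMod.chineseRemainder h x).2 := rfl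

theorem combine_pair (h : A.Coprime B) (ψ : DirichletCharacter ℂ A) (ξ : DirichletCharacter ℂ B)
    (a : ZMod A) (b : ZMod B) :
    combine h ψ ξ ((ZMod.chineseRemainder h).symm (a, b)) = ψ a * ξ b := by
  rw [combine_apply, RingEquiv.apply_symm_apply]

theorem combine_neg_one (h : A.Coprime B) (ψ : DirichletCharacter ℂ A)
    (ξ : DirichletCharacter ℂ B) : combine h ψ ξ (-1) = ψ (-1) * ξ (-1) := by
  rw [combine_apply, map_neg, map_one]
  rfl

/-- The part modulo `B` of a character. -/
def rightPart (h : A.Coprime B) (χ : DirichletCharacter ℂ (A * B)) :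
    DirichletCharacter ℂ B where
  toFun b := χ ((ZMod.chineseRemainder h).symm (1, b))
  map_one' := by rw [show ((1 : ZMod A), (1 : ZMod B)) = 1 from rfl, map_one, map_one]
  map_mul' a b := by rw [← map_mul, ← map_mul, Prod.mk_mul_mk, one_mul]
  map_nonunit' a ha := χ.map_nonunit fun hu => ha (by
    have h1 := hu.map (ZMod.chineseRemainder h)
    rw [RingEquiv.apply_symm_apply] at h1
    exact (Prod.isUnit_iff.1 h1).2)

theorem combine_parts (h : A.Coprime B) (χ : DirichletCharacter ℂ (A * B)) :
    combine h (leftPart h χ) (rightPart h χ) = χ := by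
  refine MulChar.ext fun u => ?_
  show χ ((ZMod.chineseRemainder h).symm (_, 1)) * χ ((ZMod.chineseRemainder h).symm (1, _)) = _
  rw [← map_mul, ← map_mul, Prod.mk_mul_mk, mul_one, one_mul, Prod.mk.eta,
    RingEquiv.symm_apply_apply]

theorem leftPart_combine (h : A.Coprime B) (ψ : DirichletCharacter ℂ A)
    (ξ : DirichletCharacter ℂ B) : leftPart h (combine h ψ ξ) = ψ := by
  refine MulChar.ext fun u => ?_
  show combine h ψ ξ ((ZMod.chineseRemainder h).symm (_, 1)) = _
  rw [combine_pair, map_one, mul_one]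

theorem rightPart_combine (h : A.Coprime B) (ψ : DirichletCharacter ℂ A)
    (ξ : DirichletCharacter ℂ B) : rightPart h (combine h ψ ξ) = ξ := by
  refine MulChar.ext fun u => ?_
  show combine h ψ ξ ((ZMod.chineseRemainder h).symm (1, _)) = _
  rw [combine_pair, map_one, one_mul]

/-- Lifting both factors. -/
theorem changeLevel_combine {A' B' : ℕ} [NeZero A'] [NeZero B'] (h : A.Coprime B)
    (h' : A'.Coprime B') (hA : A ∣ A') (hB : B ∣ B') (ψ : DirichletCharacter ℂ A)
    (ξ : DirichletCharacter ℂ B) :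
    changeLevel (mul_dvd_mul hA hB) (combine h ψ ξ) =
      combine h' (changeLevel hA ψ) (changeLevel hB ξ) := by
  refine MulChar.ext fun u => ?_
  obtain ⟨h1, h2⟩ := Prod.isUnit_iff.1 (u.isUnit.map (ZMod.chineseRemainder h'))
  have hL := changeLevel_eq_cast_of_dvd ψ hA h1.unit
  have hR := changeLevel_eq_cast_of_dvd ξ hB h2.unit
  rw [IsUnit.unit_spec] at hL hR
  rw [changeLevel_eq_cast_of_dvd _ _ u, combine_apply, combine_apply h', hL, hR,
    ← ZMod.castHom_apply (h := mul_dvd_mul hA hB) (R := ZMod (A * B)),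
    ← ZMod.castHom_apply (h := hA) (R := ZMod A), ← ZMod.castHom_apply (h := hB) (R := ZMod B),
    ← ZMod.natCast_zmod_val (u : ZMod (A' * B'))]
  simp only [map_natCast, Prod.fst_natCast, Prod.snd_natCast]

/-- **A product of primitive characters is primitive.** -/
theorem isPrimitive_combine (h : A.Coprime B) {ψ : DirichletCharacter ℂ A}
    {ξ : DirichletCharacter ℂ B} (hψ : ψ.IsPrimitive) (hξ : ξ.IsPrimitive) :
    (combine h ψ ξ).IsPrimitive := by
  set χ := combine h ψ ξ
  obtain ⟨a, b, ha, hb, hab⟩ := Nat.dvd_mul.1 χ.conductor_dvd_level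
  have hχ : ∀ {m : ℕ} (hm : m ∣ A * B), χ.conductor ∣ m → ∀ (x : ZMod A) (y : ZMod B),
      IsUnit x → IsUnit y → ZMod.castHom hm (ZMod m) ((ZMod.chineseRemainder h).symm (x, y)) = 1 →
      ψ x * ξ y = 1 := fun {m} hm hcond x y hx hy he => by
    have hu : IsUnit ((ZMod.chineseRemainder h).symm (x, y)) :=
      (Prod.isUnit_iff.2 ⟨hx, hy⟩).map (ZMod.chineseRemainder h).symm
    have hf := (factorsThrough_iff_ker_unitsMap hm).1
      ((mem_conductorSet_iff_conductor_dvd χ hm).2 hcond)
      (show hu.unit ∈ (ZMod.unitsMap hm).ker from MonoidHom.mem_ker.2 (Units.ext (by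
        rw [ZMod.unitsMap_val, IsUnit.unit_spec, Units.val_one]
        exact he)))
    have h2 := congrArg Units.val (MonoidHom.mem_ker.1 hf)
    rw [MulChar.coe_toUnitHom, IsUnit.unit_spec, Units.val_one] at h2
    rwa [combine_pair] at h2
  have hval : ∀ (x : ZMod A) (y : ZMod B) {m : ℕ} (hm : m ∣ A * B),
      ZMod.castHom hm (ZMod m) ((ZMod.chineseRemainder h).symm (x, y)) =
        ((((ZMod.chineseRemainder h).symm (x, y)).val : ℕ) : ZMod m) := fun x y m hm => by
    conv_lhs => rw [← ZMod.natCast_zmod_val ((ZMod.chineseRemainder h).symm (x, y))]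
    rw [map_natCast]
  have hfst : ∀ (x : ZMod A) (y : ZMod B),
      ((((ZMod.chineseRemainder h).symm (x, y)).val : ℕ) : ZMod A) = x ∧
      ((((ZMod.chineseRemainder h).symm (x, y)).val : ℕ) : ZMod B) = y := fun x y => by
    have e := congrArg (ZMod.chineseRemainder h)
      (ZMod.natCast_zmod_val ((ZMod.chineseRemainder h).symm (x, y)))
    rw [map_natCast, RingEquiv.apply_symm_apply] at e
    exact ⟨congrArg Prod.fst e, congrArg Prod.snd e⟩
  have key : ∀ (x : ZMod A) (y : ZMod B) {a b : ℕ} (ha : a ∣ A) (hb : b ∣ B),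
      ZMod.castHom ha (ZMod a) x = 1 → ZMod.castHom hb (ZMod b) y = 1 →
      ZMod.castHom (mul_dvd_mul ha hb) (ZMod (a * b)) ((ZMod.chineseRemainder h).symm (x, y)) = 1 :=
      fun x y a b ha hb hx hy => by
    rw [hval, ← Nat.cast_one, ZMod.natCast_eq_natCast_iff]
    refine (Nat.modEq_and_modEq_iff_modEq_mul ((h.coprime_dvd_left ha).coprime_dvd_right hb)).1
      ⟨?_, ?_⟩
    · rw [← ZMod.natCast_eq_natCast_iff, Nat.cast_one]
      have e := congrArg (ZMod.castHom ha (ZMod a)) (hfst x y).1
      rwa [map_natCast, hx] at e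
    · rw [← ZMod.natCast_eq_natCast_iff, Nat.cast_one]
      have e := congrArg (ZMod.castHom hb (ZMod b)) (hfst x y).2
      rwa [map_natCast, hy] at e
  have hA : ψ.conductor ∣ a := by
    refine (mem_conductorSet_iff_conductor_dvd ψ ha).1 ((factorsThrough_iff_ker_unitsMap ha).2
      fun x hx => MonoidHom.mem_ker.2 (Units.ext ?_))
    rw [MonoidHom.mem_ker, Units.ext_iff, ZMod.unitsMap_val] at hx
    have h1 := hχ (mul_dvd_mul ha (dvd_refl B)) (hab ▸ mul_dvd_mul_left a hb) x 1 x.isUnit
      isUnit_one (key x 1 ha (dvd_refl B) hx (map_one _))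
    rw [map_one, mul_one] at h1
    rw [MulChar.coe_toUnitHom, Units.val_one, h1]
  have hB : ξ.conductor ∣ b := by
    refine (mem_conductorSet_iff_conductor_dvd ξ hb).1 ((factorsThrough_iff_ker_unitsMap hb).2
      fun y hy => MonoidHom.mem_ker.2 (Units.ext ?_))
    rw [MonoidHom.mem_ker, Units.ext_iff, ZMod.unitsMap_val] at hy
    have h1 := hχ (mul_dvd_mul (dvd_refl A) hb) (hab ▸ mul_dvd_mul_right ha b) 1 y isUnit_one
      y.isUnit (key 1 y (dvd_refl A) hb (map_one _) hy)
    rw [map_one, one_mul] at h1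
    rw [MulChar.coe_toUnitHom, Units.val_one, h1]
  rw [(isPrimitive_def ψ).1 hψ] at hA
  rw [(isPrimitive_def ξ).1 hξ] at hB
  rw [isPrimitive_def, ← hab, Nat.dvd_antisymm ha hA, Nat.dvd_antisymm hb hB]

end FA.KidaFormula
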