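import Fermat.Agent.KidaFormula.Levels

/-!
# Counting the branches

The characters modulo `ℓ` killed by `p^a` (`card_kills`), the characters modulo `f` trivial at a
residue (`card_trivial_mul_order`), and the branches of a given parity (`card_par`).
-/

set_option autoImplicit false
set_option linter.unusedSectionVars false
set_option linter.style.haveILetI false

noncomputable section

open DirichletCharacter
open FA.IwasawaMinus (theta theta_pow_card theta_pow_half)
open FA.FerreroAbelian (AlgNum embA char_mem)
open scoped Classical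

namespace FA.KidaFormula

variable {p : ℕ} [hp : Fact p.Prime]

/-- The characters modulo a prime `ℓ` killed by a divisor of `ℓ - 1`. -/
theorem card_kills {ℓ : ℕ} [hl : Fact ℓ.Prime] [NeZero ℓ] {d : ℕ} (hd : d ∣ ℓ - 1) :
    (Finset.univ.filter fun ψ : DirichletCharacter ℂ ℓ => ψ ^ d = 1).card = d := by
  haveI : IsCyclic (DirichletCharacter ℂ ℓ) :=
    (DirichletCharacter.mulEquiv_units ℂ ℓ).some.isCyclic.2 inferInstance
  have h := IsCyclic.card_powMonoidHom_ker (G := DirichletCharacter ℂ ℓ) d
  rw [DirichletCharacter.card_eq_totient_of_hasEnoughRootsOfUnity, Nat.totient_prime hl.out,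
    Nat.gcd_eq_right hd] at h
  conv_rhs => rw [← h]
  rw [← Fintype.card_subtype, ← Nat.card_eq_fintype_card]
  exact Nat.card_congr (Equiv.subtypeEquivRight fun ψ => by
    rw [MonoidHom.mem_ker, powMonoidHom_apply])

/-- The characters trivial at a unit are as many as the cosets of the group it generates. -/
theorem card_trivial_mul_order {f ℓ : ℕ} [NeZero f] (h : f.Coprime ℓ) :
    (Finset.univ.filter fun ψ : DirichletCharacter ℂ f => ψ (ℓ : ZMod f) = 1).card *
      orderOf (ℓ : ZMod f) = Nat.totient f := by
  set r := orderOf (ℓ : ZMod f) with hr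
  obtain ⟨w, hw⟩ := (ZMod.isUnit_iff_coprime ℓ f).2 (Nat.coprime_comm.1 h)
  have hr0 : 0 < r := by
    rw [hr, ← hw, orderOf_units]
    exact orderOf_pos w
  have h1 : ∑ i ∈ Finset.range r, ∑ ψ : DirichletCharacter ℂ f, ψ ((ℓ : ZMod f) ^ i) =
      (Nat.totient f : ℂ) := by
    rw [Finset.sum_eq_single 0 (fun i hi h0 => ?_)
      (fun h0 => absurd (Finset.mem_range.2 hr0) h0), pow_zero,
      DirichletCharacter.sum_characters_eq,
      if_pos rfl]
    rw [DirichletCharacter.sum_characters_eq,
      if_neg (pow_ne_one_of_lt_orderOf h0 (Finset.mem_range.1 hi))]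
  have h2 : ∀ ψ : DirichletCharacter ℂ f, ∑ i ∈ Finset.range r, ψ ((ℓ : ZMod f) ^ i) =
      if ψ (ℓ : ZMod f) = 1 then (r : ℂ) else 0 := fun ψ => by
    simp only [map_pow]
    split_ifs with hψ
    · simp [hψ]
    · refine (mul_eq_zero.1 ?_).resolve_right (sub_ne_zero.2 hψ)
      rw [geom_sum_mul, ← map_pow, hr, pow_orderOf_eq_one, map_one, sub_self]
  rw [Finset.sum_comm, Finset.sum_congr rfl fun ψ _ => h2 ψ, ← Finset.sum_filter,
    Finset.sum_const, nsmul_eq_mul] at h1
  exact_mod_cast h1

/-- Half of the branches have a given parity. -/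
theorem card_par (hp2 : p ≠ 2) {m : ℕ} [NeZero m] (ψ : DirichletCharacter ℂ m) :
    (Finset.univ.filter fun u : (ZMod p)ˣ => Par ψ u).card = (p - 1) / 2 := by
  set h := (p - 1) / 2 with hh
  have heven : h * 2 = p - 1 :=
    Nat.div_mul_cancel ((hp.out.odd_of_ne_two hp2).tsub_odd odd_one).two_dvd
  have hK : (Finset.univ.filter fun u : (ZMod p)ˣ => u ^ h = 1).card = h := by
    have h1 := IsCyclic.card_powMonoidHom_ker (G := (ZMod p)ˣ) h
    rw [Nat.card_eq_fintype_card (α := (ZMod p)ˣ), ZMod.card_units,
      Nat.gcd_eq_right (Dvd.intro 2 heven)] at h1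
    conv_rhs => rw [← h1]
    rw [← Fintype.card_subtype, ← Nat.card_eq_fintype_card]
    exact Nat.card_congr (Equiv.subtypeEquivRight fun u => by
      rw [MonoidHom.mem_ker, powMonoidHom_apply])
  have h2 : (-1 : ZMod p) ≠ 1 := fun e => hp2 (by
    have : ((2 : ℕ) : ZMod p) = 0 := by push_cast; linear_combination -e
    exact (Nat.prime_dvd_prime_iff_eq hp.out Nat.prime_two).1
      ((ZMod.natCast_eq_zero_iff 2 p).1 this))
  have hval : ∀ u : (ZMod p)ˣ, theta u ^ h = if u ^ h = 1 then 1 else -1 := fun u => by
    split_ifs with hu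
    · refine (sq_eq_one_iff.1 ?_).resolve_right fun e => h2 ?_
      · rw [← pow_mul, heven, theta_pow_card]
      · rw [← (theta_pow_half hp2 u).1 e, ← Units.val_pow_eq_pow_val, hu, Units.val_one]
    · refine (theta_pow_half hp2 u).2 ((sq_eq_one_iff.1 ?_).resolve_left fun e => hu (Units.ext ?_))
      · rw [← pow_mul, heven, ← Units.val_pow_eq_pow_val, ZMod.units_pow_card_sub_one_eq_one,
          Units.val_one]
      · rw [Units.val_pow_eq_pow_val, e, Units.val_one]
  rcases ψ.even_or_odd with hψ | hψ
  · have hm : (intChar p ψ (-1) : PadicAlgCl p) = 1 := by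
      show embA p _ = 1
      rw [← map_one (embA p)]
      exact congrArg _ (Subtype.ext hψ)
    have hiff : ∀ u : (ZMod p)ˣ, Par ψ u ↔ ¬ u ^ h = 1 := fun u => by
      unfold Par
      rw [← hh, hm, one_mul, hval]
      split_ifs with hu
      · exact iff_of_false (fun e => two_ne_zero (α := PadicAlgCl p) (by linear_combination e))
          (not_not.2 hu)
      · exact iff_of_true rfl hu
    rw [Finset.filter_congr fun u _ => hiff u, Finset.filter_not,
      Finset.card_sdiff_of_subset (Finset.filter_subset _ _), hK, Finset.card_univ, ZMod.card_units]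
    omega
  · have hm : (intChar p ψ (-1) : PadicAlgCl p) = -1 := by
      show embA p _ = -1
      rw [← map_one (embA p), ← map_neg]
      exact congrArg _ (Subtype.ext hψ)
    have hiff : ∀ u : (ZMod p)ˣ, Par ψ u ↔ u ^ h = 1 := fun u => by
      unfold Par
      rw [← hh, hm, hval]
      split_ifs with hu
      · exact iff_of_true (mul_one _) hu
      · exact iff_of_false (fun e => two_ne_zero (α := PadicAlgCl p) (by linear_combination e)) hu
    rw [Finset.filter_congr fun u _ => hiff u, hK]

end FA.KidaFormula
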