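import Fermat.Agent.FerreroAbelian.Branch

/-!
# The Euler factor of an imprimitive branch

Adjoining a prime `ℓ ≠ p` to the level multiplies the values `(1/N) ∑ χ(a) η ^ k r_{a,k}` by
`1 - χ(ℓ) η ^ t`, `g ^ t ≡ ℓ` (`bv_impr`).
-/

set_option autoImplicit false
set_option linter.unusedSectionVars false
set_option linter.style.haveILetI false

noncomputable section

open FA.IwasawaMinus (IsGen sum_range_shift)
open FA.FerreroAbelian (res stickSum bv)

namespace FA.KidaFormula

variable {p : ℕ} [hp : Fact p.Prime] {d g : ℕ} [NeZero d] {ℓ : ℕ} [NeZero ℓ]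

instance neZero_level_mul : NeZero (d * ℓ) := ⟨Nat.mul_ne_zero (NeZero.ne d) (NeZero.ne ℓ)⟩

/-- The imprimitive function modulo `d ℓ`. -/
def impr {R : Type*} [CommRing R] (ℓ : ℕ) (χ : ZMod d → R) (a : ZMod (d * ℓ)) : R :=
  if ZMod.castHom (dvd_mul_left ℓ d) (ZMod ℓ) a = 0 then 0
  else χ (ZMod.castHom (dvd_mul_right d ℓ) (ZMod d) a)

theorem impr_map {R S : Type*} [CommRing R] [CommRing S] (F : R →+* S) (χ : ZMod d → R)
    (a : ZMod (d * ℓ)) : F (impr ℓ χ a) = impr ℓ (F ∘ χ) a := by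
  unfold impr
  split_ifs
  · exact map_zero F
  · rfl

/-- Multiplication by `ℓ`. -/
def mulLevel (ℓ : ℕ) (b : ZMod d) : ZMod (d * ℓ) := ((ℓ * b.val : ℕ) : ZMod (d * ℓ))

theorem val_mulLevel (b : ZMod d) : (mulLevel ℓ b).val = ℓ * b.val := by
  rw [mulLevel, ZMod.val_natCast, Nat.mod_eq_of_lt]
  rw [mul_comm d ℓ]
  exact Nat.mul_lt_mul_of_pos_left (ZMod.val_lt b) (NeZero.pos ℓ)

theorem mulLevel_injective : Function.Injective (mulLevel (d := d) ℓ) := fun b b' h => by
  have e := congrArg ZMod.val h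
  rw [val_mulLevel, val_mulLevel] at e
  exact ZMod.val_injective d (Nat.eq_of_mul_eq_mul_left (NeZero.pos ℓ) e)

/-- The multiples of `ℓ`. -/
theorem image_mulLevel : (Finset.univ : Finset (ZMod d)).image (mulLevel ℓ) =
    Finset.univ.filter fun a : ZMod (d * ℓ) =>
      ZMod.castHom (dvd_mul_left ℓ d) (ZMod ℓ) a = 0 := by
  ext a
  simp only [Finset.mem_image, Finset.mem_univ, true_and, Finset.mem_filter]
  constructor
  · rintro ⟨b, rfl⟩
    rw [mulLevel, map_natCast, Nat.cast_mul, ZMod.natCast_self, zero_mul]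
  · intro h
    have h' : ((a.val : ℕ) : ZMod ℓ) = 0 := by
      conv_lhs at h => rw [← ZMod.natCast_zmod_val a, map_natCast]
      exact h
    obtain ⟨q, hq⟩ := (ZMod.natCast_eq_zero_iff _ _).1 h'
    refine ⟨(q : ZMod d), ZMod.val_injective _ ?_⟩
    have hlt : q < d := by
      have := ZMod.val_lt a
      rw [hq, mul_comm d] at this
      exact Nat.lt_of_mul_lt_mul_left this
    rw [val_mulLevel, ZMod.val_natCast, Nat.mod_eq_of_lt hlt, hq]

variable (hd : d.Coprime p) (hl : ℓ.Coprime p)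
include hd hl

theorem res_mulLevel {n t : ℕ}
    (ht : (g : ZMod (p ^ (n + 1))) ^ t = (ℓ : ZMod (p ^ (n + 1)))) (b : ZMod d) (k : ℕ) :
    res (d * ℓ) p g n (mulLevel ℓ b) (k + t) = ℓ * res d p g n b k := by
  have hlt : ℓ * res d p g n b k < d * ℓ * p ^ (n + 1) := by
    rw [mul_comm d ℓ, mul_assoc]
    exact Nat.mul_lt_mul_of_pos_left (FA.FerreroAbelian.res_lt n b k) (NeZero.pos ℓ)
  refine FA.FerreroAbelian.eq_of_casts
    (FA.FerreroAbelian.coprime_level (Nat.Coprime.mul_left hd hl) n)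
    (FA.FerreroAbelian.res_lt _ _ _) hlt ?_ ?_
  · rw [FA.FerreroAbelian.cast_res_left (Nat.Coprime.mul_left hd hl), mulLevel,
      ZMod.natCast_eq_natCast_iff, mul_comm d ℓ]
    refine Nat.ModEq.mul_left' ℓ ?_
    rw [← ZMod.natCast_eq_natCast_iff, ZMod.natCast_zmod_val,
      FA.FerreroAbelian.cast_res_left hd]
  · rw [FA.FerreroAbelian.cast_res_right (Nat.Coprime.mul_left hd hl), Nat.cast_mul,
      FA.FerreroAbelian.cast_res_right hd, pow_add (g : ZMod (p ^ (n + 1))) k t, ht, mul_comm]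

/-- The lifts of one residue. -/
theorem sum_cast {R : Type*} [Field R] (χ : ZMod d → R) {n : ℕ} (k : ℕ) :
    ∑ a : ZMod (d * ℓ), χ (ZMod.castHom (dvd_mul_right d ℓ) (ZMod d) a) *
        (res (d * ℓ) p g n a k : R) =
      ∑ b : ZMod d, χ b * ∑ i : Fin ℓ,
        ((res d p g n b k + i * (d * p ^ (n + 1)) : ℕ) : R) := by
  have hcop := Nat.Coprime.mul_left hd hl
  set e : ZMod d × Fin ℓ → ZMod (d * ℓ) := fun x =>
    ((res d p g n x.1 k + x.2 * (d * p ^ (n + 1)) : ℕ) : ZMod (d * ℓ)) with he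
  have hfst : ∀ x, ZMod.castHom (dvd_mul_right d ℓ) (ZMod d) (e x) = x.1 := fun x => by
    rw [he, map_natCast]
    push_cast
    rw [ZMod.natCast_self, zero_mul, mul_zero, add_zero, FA.FerreroAbelian.cast_res_left hd]
  have hres : ∀ x, res (d * ℓ) p g n (e x) k =
      res d p g n x.1 k + x.2 * (d * p ^ (n + 1)) := fun x => by
    refine FA.FerreroAbelian.eq_of_casts (FA.FerreroAbelian.coprime_level hcop n)
      (FA.FerreroAbelian.res_lt _ _ _) ?_ (FA.FerreroAbelian.cast_res_left hcop n _ k) ?_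
    · calc res d p g n x.1 k + x.2 * (d * p ^ (n + 1))
          < (x.2 + 1) * (d * p ^ (n + 1)) := by
            rw [add_one_mul, add_comm]
            exact Nat.add_lt_add_left (FA.FerreroAbelian.res_lt n x.1 k) _
        _ ≤ ℓ * (d * p ^ (n + 1)) := Nat.mul_le_mul_right _ x.2.2
        _ = d * ℓ * p ^ (n + 1) := by ring
    · rw [FA.FerreroAbelian.cast_res_right hcop, Nat.cast_add, Nat.cast_mul, Nat.cast_mul,
        ZMod.natCast_self, mul_zero, mul_zero, add_zero, FA.FerreroAbelian.cast_res_right hd]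
  have hinj : Function.Injective e := fun x y h => by
    have h1 : x.1 = y.1 := by rw [← hfst x, ← hfst y, h]
    have h2 := congrArg (fun a => res (d * ℓ) p g n a k) h
    simp only [hres, h1, add_right_inj] at h2
    exact Prod.ext h1 (Fin.ext (Nat.eq_of_mul_eq_mul_right
      (Nat.mul_pos (NeZero.pos d) (pow_pos hp.out.pos _)) h2))
  have hbij : Function.Bijective e := (Fintype.bijective_iff_injective_and_card e).2
    ⟨hinj, by rw [Fintype.card_prod, ZMod.card, Fintype.card_fin, ZMod.card]⟩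
  rw [Finset.sum_congr rfl fun b _ => Finset.mul_sum _ _ _, ← Fintype.sum_prod_type']
  symm
  refine Fintype.sum_bijective e hbij _ _ fun x => ?_
  rw [hfst, hres]

/-- **The Euler factor.** -/
theorem stickSum_impr (hg : IsGen p g) {R : Type*} [Field R] (χ : ZMod d → R)
    (hmul : ∀ a b, χ (a * b) = χ a * χ b) {n t : ℕ} {η : R}
    (hη : η ^ ((p - 1) * p ^ n) = 1) (hη1 : η ≠ 1)
    (ht : (g : ZMod (p ^ (n + 1))) ^ t = (ℓ : ZMod (p ^ (n + 1)))) :
    stickSum (d * ℓ) p g n (impr ℓ χ) η =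
      (ℓ : R) * (1 - χ (ℓ : ZMod d) * η ^ t) * stickSum d p g n χ η := by
  set φ := (p - 1) * p ^ n with hφ
  set c := ZMod.castHom (dvd_mul_right d ℓ) (ZMod d)
  set T : ZMod (d * ℓ) → R :=
    fun a => ∑ k ∈ Finset.range φ, η ^ k * (res (d * ℓ) p g n a k : R) with hT
  have hsplit : stickSum (d * ℓ) p g n (impr ℓ χ) η =
      ∑ a, χ (c a) * T a - ∑ a ∈ (Finset.univ : Finset (ZMod d)).image (mulLevel ℓ),
        χ (c a) * T a := by
    rw [image_mulLevel, eq_sub_iff_add_eq, stickSum,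
      ← Finset.sum_filter_add_sum_filter_not Finset.univ (fun a : ZMod (d * ℓ) =>
        ZMod.castHom (dvd_mul_left ℓ d) (ZMod ℓ) a = 0) (fun a => χ (c a) * T a),
      ← Finset.sum_filter_add_sum_filter_not Finset.univ (fun a : ZMod (d * ℓ) =>
        ZMod.castHom (dvd_mul_left ℓ d) (ZMod ℓ) a = 0) (fun a => impr ℓ χ a * _)]
    rw [add_comm (∑ x ∈ _, χ (c x) * T x), add_left_inj, Finset.sum_eq_zero fun a ha => ?_,
      zero_add]
    · refine Finset.sum_congr rfl fun a ha => ?_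
      rw [impr, if_neg (Finset.mem_filter.1 ha).2]
    · rw [impr, if_pos (Finset.mem_filter.1 ha).2, zero_mul]
  -- all residues
  have hgeom : ∑ k ∈ Finset.range φ, η ^ k = 0 := by
    have h := geom_sum_mul η φ
    rw [hη, sub_self] at h
    exact (mul_eq_zero.mp h).resolve_right (sub_ne_zero.mpr hη1)
  have hall : ∑ a, χ (c a) * T a = (ℓ : R) * stickSum d p g n χ η := by
    simp only [hT, Finset.mul_sum, stickSum]
    rw [Finset.sum_comm, Finset.sum_comm (s := (Finset.univ : Finset (ZMod d)))]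
    have hk : ∀ k, ∑ a, χ (c a) * (η ^ k * (res (d * ℓ) p g n a k : R)) =
        ∑ b, (ℓ : R) * (χ b * (η ^ k * (res d p g n b k : R))) +
          (∑ i : Fin ℓ, ((i : ℕ) : R)) * ((d * p ^ (n + 1) : ℕ) : R) * (∑ b, χ b) * η ^ k :=
        fun k => by
      simp only [mul_left_comm (χ _) (η ^ k)]
      rw [← Finset.mul_sum, sum_cast hd hl χ k]
      simp only [Nat.cast_add, Nat.cast_mul, Finset.sum_add_distrib, Finset.sum_const,
        Finset.card_univ, Fintype.card_fin, nsmul_eq_mul, ← Finset.sum_mul, mul_add,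
        Finset.mul_sum, Finset.sum_mul]
      congr 1
      · exact Finset.sum_congr rfl fun b _ => by ring
      · exact Finset.sum_congr rfl fun b _ => Finset.sum_congr rfl fun i _ => by ring
    rw [Finset.sum_congr rfl fun k _ => hk k, Finset.sum_add_distrib, ← Finset.mul_sum, hgeom,
      mul_zero, add_zero]
  -- the multiples of `ℓ`
  have hgφ : (g : ZMod (p ^ (n + 1))) ^ φ = 1 := by rw [hφ, ← hg.2 n, pow_orderOf_eq_one]
  have hmult : ∀ b, χ (c (mulLevel ℓ b)) * T (mulLevel ℓ b) =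
      (ℓ : R) * (χ (ℓ : ZMod d) * η ^ t) *
        (χ b * ∑ k ∈ Finset.range φ, η ^ k * (res d p g n b k : R)) := fun b => by
    have hc : c (mulLevel ℓ b) = (ℓ : ZMod d) * b := by
      rw [mulLevel, map_natCast, Nat.cast_mul, ZMod.natCast_zmod_val]
    have hTt : T (mulLevel ℓ b) =
        ∑ k ∈ Finset.range φ, η ^ (k + t) * (res (d * ℓ) p g n (mulLevel ℓ b) (k + t) : R) :=
      (sum_range_shift (fun k => η ^ k * (res (d * ℓ) p g n (mulLevel ℓ b) k : R)) (φ := φ)
        (fun k => by simp only [res, pow_add, hη, hgφ, mul_one]) t).symm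
    rw [hc, hmul, hTt, Finset.mul_sum, Finset.mul_sum, Finset.mul_sum]
    refine Finset.sum_congr rfl fun k _ => ?_
    rw [res_mulLevel hd hl ht, pow_add, Nat.cast_mul]
    ring
  rw [hsplit, hall, Finset.sum_image fun a _ b _ h => mulLevel_injective h,
    Finset.sum_congr rfl fun b _ => hmult b, ← Finset.mul_sum]
  show (ℓ : R) * stickSum d p g n χ η - _ * stickSum d p g n χ η = _
  ring

/-- **The values.** -/
theorem bv_impr (hg : IsGen p g) {R : Type*} [Field R] [CharZero R] (χ : ZMod d → R)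
    (hmul : ∀ a b, χ (a * b) = χ a * χ b) {n t : ℕ} {η : R}
    (hη : η ^ ((p - 1) * p ^ n) = 1) (hη1 : η ≠ 1)
    (ht : (g : ZMod (p ^ (n + 1))) ^ t = (ℓ : ZMod (p ^ (n + 1)))) :
    bv (d * ℓ) p g n (impr ℓ χ) η = (1 - χ (ℓ : ZMod d) * η ^ t) * bv d p g n χ η := by
  rw [bv, bv, stickSum_impr hd hl hg χ hmul hη hη1 ht, mul_right_comm d ℓ, Nat.cast_mul]
  have hl0 : (ℓ : R) ≠ 0 := Nat.cast_ne_zero.2 (NeZero.ne ℓ)
  have hN : ((d * p ^ (n + 1) : ℕ) : R) ≠ 0 :=
    Nat.cast_ne_zero.2 (Nat.mul_ne_zero (NeZero.ne d) (pow_ne_zero _ hp.out.ne_zero))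
  field_simp

end FA.KidaFormula
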