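import Fermat.Agent.KidaFormula.Growth

/-!
# The extensions of degree `p^a` inside `ℚ(ζ_{f ℓ p^(n+1)})`

A subfield of degree `p^a` over `ℚ(ζ_{f p^(n+1)})` has as its characters those whose part modulo
`ℓ` is killed by `p^a` (`fieldChars_iff`); one exists and is CM (`exists_field`).
-/

set_option autoImplicit false
set_option linter.unusedSectionVars false
set_option linter.style.haveILetI false

noncomputable section

open NumberField DirichletCharacter
open FA.FerreroAbelian (leftPart coprime_level)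
open scoped Classical

namespace FA.KidaFormula

variable {p : ℕ} [hp : Fact p.Prime] {f ℓ : ℕ} [NeZero f] [hl : Fact ℓ.Prime] [NeZero ℓ]

/-- The characters modulo `f ℓ` with part modulo `ℓ` killed by `p^a`. -/
def kidaSet (p a : ℕ) (hfl : f.Coprime ℓ) : Finset (DirichletCharacter ℂ (f * ℓ)) :=
  Finset.univ.filter fun ψ => rightPart hfl ψ ^ p ^ a = 1

/-- The units which are `1` away from `ℓ`. -/
def inclTop (hfl : f.Coprime ℓ) {P : ℕ} (h : (f * ℓ).Coprime P) :
    (ZMod ℓ)ˣ →* (ZMod (f * ℓ * P))ˣ :=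
  Units.map
    { toFun := fun y =>
        (ZMod.chineseRemainder h).symm ((ZMod.chineseRemainder hfl).symm (1, y), 1)
      map_one' := by
        rw [show ((1 : ZMod f), (1 : ZMod ℓ)) = 1 from rfl, map_one,
          show ((1 : ZMod (f * ℓ)), (1 : ZMod P)) = 1 from rfl, map_one]
      map_mul' := fun x y => by
        rw [← map_mul, Prod.mk_mul_mk, mul_one, ← map_mul, Prod.mk_mul_mk, mul_one] }

theorem inclTop_val (hfl : f.Coprime ℓ) {P : ℕ} (h : (f * ℓ).Coprime P) (y : (ZMod ℓ)ˣ) :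
    ((inclTop hfl h y : (ZMod (f * ℓ * P))ˣ) : ZMod (f * ℓ * P)) =
      (ZMod.chineseRemainder h).symm ((ZMod.chineseRemainder hfl).symm (1, (y : ZMod ℓ)), 1) :=
  rfl

theorem inclTop_injective (hfl : f.Coprime ℓ) {P : ℕ} (h : (f * ℓ).Coprime P) :
    Function.Injective (inclTop hfl h) := fun x y e => Units.ext (by
  have e1 := congrArg Units.val e
  rw [inclTop_val, inclTop_val, (ZMod.chineseRemainder h).symm.injective.eq_iff,
    Prod.ext_iff, (ZMod.chineseRemainder hfl).symm.injective.eq_iff, Prod.ext_iff] at e1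
  exact e1.1.2)

/-- A character on these units. -/
theorem char_inclTop (hfl : f.Coprime ℓ) {P : ℕ} [NeZero P] (h : (f * ℓ).Coprime P)
    (χ : DirichletCharacter ℂ (f * ℓ * P)) (y : (ZMod ℓ)ˣ) :
    χ (inclTop hfl h y) = rightPart hfl (leftPart h χ) y := rfl

theorem mem_range_inclTop_iff (hfl : f.Coprime ℓ) {P : ℕ} [NeZero P] (h : (f * ℓ).Coprime P)
    (u : (ZMod (f * ℓ * P))ˣ) (hdvd : f * P ∣ f * ℓ * P) :
    u ∈ (inclTop hfl h).range ↔
      ZMod.castHom hdvd (ZMod (f * P)) (u : ZMod (f * ℓ * P)) = 1 := by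
  have hfP : f.Coprime P := h.coprime_dvd_left (dvd_mul_right f ℓ)
  haveI : NeZero (f * ℓ * P) := neZero_prod
  obtain ⟨m, hm⟩ : ∃ m : ℕ, (u : ZMod (f * ℓ * P)) = (m : ZMod (f * ℓ * P)) :=
    ⟨(u : ZMod (f * ℓ * P)).val, (ZMod.natCast_zmod_val _).symm⟩
  have key : ZMod.castHom hdvd (ZMod (f * P)) (u : ZMod (f * ℓ * P)) = 1 ↔
      (m : ZMod f) = 1 ∧ (m : ZMod P) = 1 := by
    rw [hm, map_natCast, ← Nat.cast_one, ZMod.natCast_eq_natCast_iff,
      ← Nat.modEq_and_modEq_iff_modEq_mul hfP, ← ZMod.natCast_eq_natCast_iff,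
      ← ZMod.natCast_eq_natCast_iff, Nat.cast_one, Nat.cast_one]
  rw [key]
  constructor
  · rintro ⟨y, hy⟩
    have e := congrArg (ZMod.chineseRemainder h) ((congrArg Units.val hy).trans hm)
    rw [inclTop_val, RingEquiv.apply_symm_apply, map_natCast] at e
    have e1 : (ZMod.chineseRemainder hfl).symm (1, (y : ZMod ℓ)) = (m : ZMod (f * ℓ)) :=
      congrArg Prod.fst e
    have e2 : (1 : ZMod P) = (m : ZMod P) := congrArg Prod.snd e
    rw [RingEquiv.symm_apply_eq, map_natCast] at e1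
    exact ⟨((congrArg Prod.fst e1).trans (Prod.fst_natCast _)).symm, e2.symm⟩
  · rintro ⟨h1, h2⟩
    have hy : IsUnit (m : ZMod ℓ) := by
      have := u.isUnit.map (ZMod.castHom ((dvd_mul_left ℓ f).mul_right P) (ZMod ℓ))
      rwa [hm, map_natCast] at this
    refine ⟨hy.unit, Units.ext ?_⟩
    rw [inclTop_val, hm, RingEquiv.symm_apply_eq, map_natCast]
    refine Prod.ext ?_ ?_
    · show (ZMod.chineseRemainder hfl).symm (1, (hy.unit : ZMod ℓ)) = _
      rw [RingEquiv.symm_apply_eq, Prod.fst_natCast, map_natCast, IsUnit.unit_spec]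
      exact Prod.ext ((Prod.fst_natCast _).trans h1).symm (Prod.snd_natCast _).symm
    · rw [Prod.snd_natCast]
      exact h2.symm

/-- In a cyclic group the subgroup of index `q` consists of the `q`-th powers. -/
theorem eq_range_pow_of_index {G : Type*} [CommGroup G] [IsCyclic G] [Finite G] (H : Subgroup G)
    {q : ℕ} (hq : H.index = q) : H = (powMonoidHom q : G →* G).range := by
  refine (Subgroup.eq_of_le_of_card_ge ?_ ?_).symm
  · rintro _ ⟨x, rfl⟩
    rw [powMonoidHom_apply, ← hq]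
    exact Subgroup.pow_index_mem H x
  · have hdvd : q ∣ Nat.card G := hq ▸ Subgroup.index_dvd_card H
    have h1 := Subgroup.card_mul_index H
    rw [IsCyclic.card_powMonoidHom_range, Nat.gcd_eq_right hdvd, ← h1, hq,
      Nat.mul_div_cancel _ (hq ▸ Nat.pos_of_ne_zero Subgroup.index_ne_zero_of_finite)]

/-- Totients. -/
theorem totient_split (hfp : f.Coprime p) (hfl : f.Coprime ℓ) (hlp : ℓ.Coprime p) (n : ℕ) :
    Nat.totient (f * ℓ * p ^ (n + 1)) = (ℓ - 1) * Nat.totient (f * p ^ (n + 1)) := by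
  rw [Nat.totient_mul ((Nat.Coprime.mul_left hfp hlp).pow_right _), Nat.totient_mul hfl,
    Nat.totient_mul (hfp.pow_right _), Nat.totient_prime hl.out]
  ring

variable (hfl : f.Coprime ℓ) (hfp : f.Coprime p) (hlp : ℓ.Coprime p)

/-- **The characters of such a field.** -/
theorem fieldChars_iff {n a : ℕ} [NeZero (f * ℓ * p ^ (n + 1))] (K : Type) [Field K]
    [NumberField K] [IsCyclotomicExtension {f * ℓ * p ^ (n + 1)} ℚ K] [IsAbelianGalois ℚ K]
    (F : Type) [Field F] [NumberField F] (ι : F →ₐ[ℚ] K) {ζ : F}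
    (hζ : IsPrimitiveRoot ζ (f * p ^ (n + 1)))
    (hdeg : Module.finrank ℚ F = p ^ a * Nat.totient (f * p ^ (n + 1)))
    (χ : DirichletCharacter ℂ (f * ℓ * p ^ (n + 1))) :
    χ ∈ FA.AbelianZeta.fieldChars (f * ℓ * p ^ (n + 1)) K ι.fieldRange ↔
      leftPart (coprime_level (Nat.Coprime.mul_left hfp hlp) n) χ ∈ kidaSet p a hfl := by
  haveI : NeZero (p ^ (n + 1)) := ⟨pow_ne_zero _ hp.out.ne_zero⟩
  haveI : NeZero (f * p ^ (n + 1)) := ⟨Nat.mul_ne_zero (NeZero.ne f) (NeZero.ne _)⟩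
  set h := coprime_level (Nat.Coprime.mul_left hfp hlp) n
  set e := IsCyclotomicExtension.Rat.galEquivZMod (f * ℓ * p ^ (n + 1)) K
  have hdvd : f * p ^ (n + 1) ∣ f * ℓ * p ^ (n + 1) := mul_dvd_mul_right (dvd_mul_right f ℓ) _
  set H : Subgroup (ZMod (f * ℓ * p ^ (n + 1)))ˣ :=
    ι.fieldRange.fixingSubgroup.map e.toMonoidHom with hH
  have hmem : χ ∈ FA.AbelianZeta.fieldChars (f * ℓ * p ^ (n + 1)) K ι.fieldRange ↔
      ∀ x ∈ H, χ (x : ZMod (f * ℓ * p ^ (n + 1))) = 1 := by
    rw [FA.AbelianZeta.mem_fieldChars_iff]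
    exact ⟨fun hσ => by rintro _ ⟨σ, hσ', rfl⟩; exact hσ σ hσ',
      fun hx σ hσ => hx _ ⟨σ, hσ, rfl⟩⟩
  -- the group fixes the roots of unity of order `f p^(n+1)`
  have hle : H ≤ (inclTop hfl h).range := by
    rintro _ ⟨σ, hσ, rfl⟩
    rw [mem_range_inclTop_iff hfl h _ hdvd]
    have hζ' := hζ.map_of_injective (f := ι) ι.toRingHom.injective
    have h1 : σ (ι ζ) = ι ζ := (IntermediateField.mem_fixingSubgroup_iff _ _).1 hσ _ ⟨ζ, rfl⟩
    have hN : ι ζ ^ (f * ℓ * p ^ (n + 1)) = 1 := (hζ'.pow_eq_one_iff_dvd _).2 hdvd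
    rw [IsCyclotomicExtension.Rat.galEquivZMod_apply_of_pow_eq _ K σ hN] at h1
    conv_rhs at h1 => rw [← pow_one (ι ζ)]
    rw [(hζ'.isOfFinOrder (NeZero.ne _)).pow_inj_mod, ← hζ'.eq_orderOf,
      ← ZMod.natCast_eq_natCast_iff', Nat.cast_one] at h1
    show ZMod.castHom hdvd _ (e σ : ZMod (f * ℓ * p ^ (n + 1))) = 1
    rw [← ZMod.natCast_zmod_val (e σ : ZMod (f * ℓ * p ^ (n + 1))), map_natCast]
    exact h1
  set H₂ := H.comap (inclTop hfl h) with hH₂
  have hmap : H₂.map (inclTop hfl h) = H := by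
    rw [hH₂, Subgroup.map_comap_eq, inf_eq_right.2 hle]
  have hcardH : Nat.card H * (p ^ a * Nat.totient (f * p ^ (n + 1))) =
      (ℓ - 1) * Nat.totient (f * p ^ (n + 1)) := by
    haveI : IsGalois ℚ K := IsCyclotomicExtension.isGalois {f * ℓ * p ^ (n + 1)} ℚ K
    have e1 : Module.finrank ℚ F = Module.finrank ℚ ι.fieldRange :=
      (AlgEquiv.ofInjectiveField ι).toLinearEquiv.finrank_eq
    rw [show Nat.card H = Nat.card ι.fieldRange.fixingSubgroup from
        Subgroup.card_map_of_injective e.injective,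
      IsGalois.card_fixingSubgroup_eq_finrank, ← hdeg, e1, mul_comm,
      Module.finrank_mul_finrank, IsCyclotomicExtension.Rat.finrank (f * ℓ * p ^ (n + 1)) (K := K),
      totient_split hfp hfl hlp]
  have hidx : H₂.index = p ^ a := by
    have hc : Nat.card H₂ = Nat.card H := by
      rw [← hmap, Subgroup.card_map_of_injective (inclTop_injective hfl h)]
    have h1 := Subgroup.card_mul_index H₂
    rw [Nat.card_eq_fintype_card (α := (ZMod ℓ)ˣ), ZMod.card_units, hc] at h1
    have hφ : 0 < Nat.totient (f * p ^ (n + 1)) := Nat.totient_pos.2 (NeZero.pos _)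
    rw [← mul_assoc] at hcardH
    exact Nat.eq_of_mul_eq_mul_left Nat.card_pos
      (h1.trans (Nat.eq_of_mul_eq_mul_right hφ hcardH).symm)
  rw [hmem, kidaSet, Finset.mem_filter, and_iff_right (Finset.mem_univ _), ← hmap,
    eq_range_pow_of_index H₂ hidx]
  constructor
  · intro hx
    refine MulChar.ext fun y => ?_
    rw [MulChar.pow_apply_coe, MulChar.one_apply_coe, ← map_pow, ← Units.val_pow_eq_pow_val,
      ← char_inclTop hfl h]
    exact hx _ ⟨_, ⟨y, rfl⟩, rfl⟩
  · rintro hψ _ ⟨_, ⟨y, rfl⟩, rfl⟩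
    rw [char_inclTop, powMonoidHom_apply, Units.val_pow_eq_pow_val, map_pow,
      ← MulChar.pow_apply_coe, hψ, MulChar.one_apply_coe]

/-- A field containing a root of unity of order above `2` is totally complex. -/
theorem isTotallyComplex_of_root (F : Type) [Field F] [NumberField F] {ζ : F} {m : ℕ}
    (hm : 2 < m) (hζ : IsPrimitiveRoot ζ m) : IsTotallyComplex F :=
  nrRealPlaces_eq_zero_iff.1
    (NumberField.InfinitePlace.IsPrimitiveRoot.nrRealPlaces_eq_zero_of_two_lt hm hζ)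

include hfl hfp hlp in
/-- **Such fields exist and are CM.** -/
theorem exists_field (hp2 : p ≠ 2) {a : ℕ} (ha : p ^ a ∣ ℓ - 1) (n : ℕ) :
    ∃ (F : Type) (_ : Field F) (_ : NumberField F) (_ : IsCMField F)
      (_ : F →ₐ[ℚ] CyclotomicField (f * ℓ * p ^ (n + 1)) ℚ) (ζ : F),
      IsPrimitiveRoot ζ (f * p ^ (n + 1)) ∧
        Module.finrank ℚ F = p ^ a * Nat.totient (f * p ^ (n + 1)) := by
  set N := f * ℓ * p ^ (n + 1) with hN
  haveI : NeZero (p ^ (n + 1)) := ⟨pow_ne_zero _ hp.out.ne_zero⟩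
  haveI : NeZero N := neZero_prod
  haveI : NeZero (f * p ^ (n + 1)) := ⟨Nat.mul_ne_zero (NeZero.ne f) (NeZero.ne _)⟩
  haveI : NeZero (N : ℚ) := ⟨Nat.cast_ne_zero.2 (NeZero.ne N)⟩
  let K := CyclotomicField N ℚ
  haveI : IsCyclotomicExtension {N} ℚ K := CyclotomicField.isCyclotomicExtension N ℚ
  haveI : NumberField K := IsCyclotomicExtension.numberField {N} ℚ K
  haveI : IsGalois ℚ K := IsCyclotomicExtension.isGalois {N} ℚ K
  haveI : IsAbelianGalois ℚ K := IsCyclotomicExtension.isAbelianGalois {N} ℚ K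
  have h := coprime_level (p := p) (Nat.Coprime.mul_left hfp hlp) n
  set e := IsCyclotomicExtension.Rat.galEquivZMod N K
  have hdvd : f * p ^ (n + 1) ∣ N := mul_dvd_mul_right (dvd_mul_right f ℓ) _
  set G₀ : Subgroup (ZMod N)ˣ :=
    ((powMonoidHom (p ^ a) : (ZMod ℓ)ˣ →* (ZMod ℓ)ˣ).range).map (inclTop hfl h) with hG₀
  set H₀ : Subgroup (K ≃ₐ[ℚ] K) := G₀.comap e.toMonoidHom with hH₀
  let E := IntermediateField.fixedField H₀
  obtain ⟨c, hc⟩ := hdvd
  have hz := (IsCyclotomicExtension.zeta_spec N ℚ K).pow (NeZero.pos N) (hc.trans (mul_comm _ _))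
  have hzmem : IsCyclotomicExtension.zeta N ℚ K ^ c ∈ E := by
    rintro ⟨σ, hσ⟩
    show σ (IsCyclotomicExtension.zeta N ℚ K ^ c) = _
    obtain ⟨y, -, hy⟩ := hσ
    have h1 := (mem_range_inclTop_iff hfl h (e σ) (Dvd.intro c hc.symm)).1 ⟨y, hy⟩
    rw [← ZMod.natCast_zmod_val (e σ : ZMod N), map_natCast] at h1
    rw [IsCyclotomicExtension.Rat.galEquivZMod_apply_of_pow_eq N K σ
      (by rw [← pow_mul, mul_comm, pow_mul, (IsCyclotomicExtension.zeta_spec N ℚ K).pow_eq_one,
        one_pow])]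
    conv_rhs => rw [← pow_one (IsCyclotomicExtension.zeta N ℚ K ^ c)]
    rw [(hz.isOfFinOrder (NeZero.ne _)).pow_inj_mod, ← hz.eq_orderOf,
      ← ZMod.natCast_eq_natCast_iff', Nat.cast_one]
    exact h1
  have hζE : IsPrimitiveRoot (⟨_, hzmem⟩ : E) (f * p ^ (n + 1)) :=
    IsPrimitiveRoot.of_map_of_injective (f := E.val) hz Subtype.val_injective
  haveI : NumberField E := NumberField.of_module_finite ℚ E
  haveI : IsTotallyComplex E := isTotallyComplex_of_root E (by
    have h1 : p ≤ p ^ (n + 1) := Nat.le_self_pow n.succ_ne_zero p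
    have h2 : p ^ (n + 1) ≤ f * p ^ (n + 1) := Nat.le_mul_of_pos_left _ (NeZero.pos f)
    have := hp.out.two_le
    omega) hζE
  haveI : IsAbelianGalois ℚ E := IsAbelianGalois.tower_bot ℚ E K
  refine ⟨E, inferInstance, inferInstance, IsCMField.of_isAbelianGalois E, E.val, _, hζE, ?_⟩
  have hcard : Nat.card H₀ * p ^ a = ℓ - 1 := by
    rw [show Nat.card H₀ = Nat.card G₀ from
        (Subgroup.card_map_of_injective (f := e.toMonoidHom) e.injective).symm.trans
          (congrArg (fun G : Subgroup (ZMod N)ˣ => Nat.card G)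
            (Subgroup.map_comap_eq_self_of_surjective e.surjective G₀)),
      hG₀, Subgroup.card_map_of_injective (inclTop_injective hfl h),
      IsCyclic.card_powMonoidHom_range, Nat.card_eq_fintype_card, ZMod.card_units,
      Nat.gcd_eq_right ha, Nat.div_mul_cancel ha]
  have h1 := Module.finrank_mul_finrank ℚ E K
  rw [IntermediateField.finrank_fixedField_eq_card,
    IsCyclotomicExtension.Rat.finrank N (K := K),
    show Nat.totient N = _ from totient_split hfp hfl hlp n, ← hcard] at h1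
  refine Nat.eq_of_mul_eq_mul_right (Nat.card_pos (α := H₀)) ?_
  rw [h1]
  ring

end FA.KidaFormula
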