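import Fermat.Agent.KidaFormula.Levels

/-!
# The exact growth of the minus part

For a subfield `F` of `ℚ(ζ_{M p^(n+1)})`, whose characters are those with part modulo `M` in a set
`S`, `v_p h(F) - v_p h(F⁺) = (sumL S + 1) n + ν` at high levels (`exists_linear`,
`exists_cyclotomic_linear`).
-/

set_option autoImplicit false
set_option linter.unusedSectionVars false
set_option linter.style.haveILetI false

noncomputable section

open NumberField DirichletCharacter
open FA.IwasawaMinus (IsGen term)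
open FA.FerreroAbelian (sz leftPart oddChars coprime_level)
open scoped Classical

namespace FA.KidaFormula

variable {p : ℕ} [hp : Fact p.Prime] {g : ℕ} {M : ℕ} [NeZero M]

theorem inv_p_pos : 0 < (p : ℝ)⁻¹ := inv_pos.2 (by exact_mod_cast hp.out.pos)

theorem inv_p_ne_one : (p : ℝ)⁻¹ ≠ 1 :=
  (inv_lt_one_of_one_lt₀ (show (1 : ℝ) < p by exact_mod_cast hp.out.one_lt)).ne

/-- **The product is exactly linear.** -/
theorem exists_linear (hp2 : p ≠ 2) (hg : IsGen p g) (hM : M.Coprime p)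
    (S : Finset (DirichletCharacter ℂ M))
    (hint : ∀ n, ∃ e : ℤ, szS hM S n = (p : ℝ)⁻¹ ^ e) :
    ∃ (nu : ℤ) (n₀ : ℕ), ∀ n, n₀ ≤ n → szS hM S n = (p : ℝ)⁻¹ ^ (sumL g p S * n + nu) := by
  obtain ⟨n₀, hn₀⟩ := Filter.eventually_atTop.1 (eventually_szS_succ hp2 hg hM S)
  obtain ⟨e, he⟩ := hint n₀
  refine ⟨e - sumL g p S * n₀, n₀, fun n hn => ?_⟩
  induction n, hn using Nat.le_induction with
  | base => rw [he, add_sub_cancel]
  | succ n hn ih =>
    rw [hn₀ n hn, ih, ← zpow_add₀ inv_p_pos.ne']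
    congr 1
    push_cast
    ring

set_option backward.isDefEq.respectTransparency false in
/-- The class number formula in absolute values. -/
theorem classNumber_eq_szS (hp2 : p ≠ 2) (hM : M.Coprime p)
    (S : Finset (DirichletCharacter ℂ M)) (n : ℕ) [NeZero (M * p ^ (n + 1))] (K : Type) [Field K]
    [NumberField K] [IsCyclotomicExtension {M * p ^ (n + 1)} ℚ K] [IsAbelianGalois ℚ K]
    (F : Type) [Field F] [NumberField F] [IsCMField F] (f : F →ₐ[ℚ] K)
    (hchars : ∀ χ : DirichletCharacter ℂ (M * p ^ (n + 1)), χ.Odd →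
      (χ ∈ FA.AbelianZeta.fieldChars (M * p ^ (n + 1)) K f.fieldRange ↔
        leftPart (coprime_level hM n) χ ∈ S)) :
    (p : ℝ)⁻¹ ^ padicValNat p (classNumber F) =
      (p : ℝ)⁻¹ ^ (padicValNat p (classNumber (maximalRealSubfield F)) +
        padicValNat p (Units.torsionOrder F)) * szS hM S n := by
  have h := FA.AbelianFE.relativeClassNumber_eq (M * p ^ (n + 1)) K F f
  have hfil : (Finset.univ.filter fun χ : DirichletCharacter ℂ (M * p ^ (n + 1)) =>
      χ ∈ FA.AbelianZeta.fieldChars (M * p ^ (n + 1)) K f.fieldRange ∧ χ.Odd) =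
      (oddChars (M * p ^ (n + 1))).filter (fun χ => leftPart (coprime_level hM n) χ ∈ S) := by
    ext χ
    simp only [oddChars, Finset.mem_filter, Finset.mem_univ, true_and]
    exact ⟨fun h => ⟨h.2, (hchars χ h.2).1 h.1⟩, fun h => ⟨(hchars χ h.1).2 h.2, h.1⟩⟩
  rw [hfil] at h
  change (classNumber F : ℂ) = _ * _ * _ * ∏ χ ∈ _, term χ at h
  have hs := congrArg (sz p) h
  rw [FA.FerreroAbelian.sz_mul (mul_mem (mul_mem (natCast_mem _ _) (natCast_mem _ _))
        (natCast_mem _ _)) (prod_mem fun χ _ => FA.FerreroAbelian.term_mem χ),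
    FA.FerreroAbelian.sz_mul (mul_mem (natCast_mem _ _) (natCast_mem _ _)) (natCast_mem _ _),
    FA.FerreroAbelian.sz_mul (natCast_mem _ _) (natCast_mem _ _),
    FA.FerreroAbelian.sz_prod _ _ (fun χ _ => FA.FerreroAbelian.term_mem χ)] at hs
  simp only [FA.FerreroAbelian.sz_natCast] at hs
  rw [FA.IwasawaMinus.norm_natCast_eq_pow (classNumber_pos F).ne',
    FA.IwasawaMinus.norm_natCast_eq_pow (classNumber_pos (maximalRealSubfield F)).ne',
    FA.IwasawaMinus.norm_natCast_eq_pow (Units.torsionOrder_ne_zero F)] at hs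
  have hQ : ‖(IsCMField.indexRealUnits F : PadicAlgCl p)‖ = 1 :=
    FA.IwasawaMinus.norm_natCast_of_not_dvd fun hd => by
      rcases IsCMField.indexRealUnits_eq_one_or_two F with q | q <;> rw [q] at hd
      · exact hp.out.ne_one (Nat.dvd_one.1 hd)
      · exact hp2 ((Nat.prime_dvd_prime_iff_eq hp.out Nat.prime_two).1 hd)
  rw [hs, hQ, mul_one, ← pow_add]
  rfl

/-- The product is a power of `|p|` if some field of the level exists. -/
theorem exists_szS_eq_zpow {hM : M.Coprime p} {S : Finset (DirichletCharacter ℂ M)} {n a b : ℕ}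
    (h : (p : ℝ)⁻¹ ^ a = (p : ℝ)⁻¹ ^ b * szS hM S n) : ∃ e : ℤ, szS hM S n = (p : ℝ)⁻¹ ^ e := by
  refine ⟨(a : ℤ) - b, ?_⟩
  rw [zpow_sub₀ inv_p_pos.ne', zpow_natCast, zpow_natCast, h,
    mul_div_cancel_left₀ _ (pow_ne_zero _ inv_p_pos.ne')]

/-- From the product to the exponents. -/
theorem classNumber_linear {hM : M.Coprime p} {S : Finset (DirichletCharacter ℂ M)} {n a b : ℕ}
    {nu : ℤ} (h : (p : ℝ)⁻¹ ^ a = (p : ℝ)⁻¹ ^ (b + (n + 1)) * szS hM S n)
    (hS : szS hM S n = (p : ℝ)⁻¹ ^ (sumL g p S * n + nu)) :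
    (a : ℤ) = b + (sumL g p S + 1) * n + (nu + 1) := by
  rw [hS, ← zpow_natCast, ← zpow_natCast, ← zpow_add₀ inv_p_pos.ne'] at h
  have := zpow_right_injective₀ inv_p_pos inv_p_ne_one h
  push_cast at this
  linear_combination this

/-- The roots of unity of `p`-power order in a subfield of `ℚ(ζ_{M p^(n+1)})`. -/
theorem torsionOrder_eq (hp2 : p ≠ 2) (hM : M.Coprime p) (n : ℕ) (K : Type) [Field K]
    [NumberField K] [IsCyclotomicExtension {M * p ^ (n + 1)} ℚ K] (F : Type) [Field F]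
    [NumberField F] (f : F →ₐ[ℚ] K) {ζ : F} (hζ : IsPrimitiveRoot ζ (p ^ (n + 1))) :
    padicValNat p (Units.torsionOrder F) = n + 1 := by
  haveI : NeZero (M * p ^ (n + 1)) :=
    ⟨Nat.mul_ne_zero (NeZero.ne M) (pow_ne_zero _ hp.out.ne_zero)⟩
  haveI : NeZero (p ^ (n + 1)) := ⟨pow_ne_zero _ hp.out.ne_zero⟩
  refine le_antisymm ?_ ((padicValNat_dvd_iff_le (Units.torsionOrder_ne_zero F)).1 ?_)
  · have hdvd : Units.torsionOrder F ∣ Units.torsionOrder K := by
      obtain ⟨μ, hμ⟩ : ∃ μ : Units.torsion F, orderOf μ = Units.torsionOrder F :=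
        IsCyclic.exists_ofOrder_eq_natCard
      rw [← IsPrimitiveRoot.iff_orderOf, ← IsPrimitiveRoot.coe_submonoidClass_iff,
        ← IsPrimitiveRoot.coe_units_iff] at hμ
      exact NumberField.Units.dvd_torsionOrder_of_isPrimitiveRoot
        ((hμ.map_of_injective (FaithfulSMul.algebraMap_injective (𝓞 F) F)).map_of_injective
          (f := f) f.toRingHom.injective)
    have h2 : padicValNat p 2 = 0 := padicValNat.eq_zero_of_not_dvd fun hd =>
      hp2 ((Nat.prime_dvd_prime_iff_eq hp.out Nat.prime_two).1 hd)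
    have h3 : padicValNat p (M * p ^ (n + 1)) = n + 1 := by
      rw [padicValNat.mul (NeZero.ne M) (pow_ne_zero _ hp.out.ne_zero),
        padicValNat.eq_zero_of_not_dvd (hp.out.coprime_iff_not_dvd.1 (Nat.coprime_comm.1 hM)),
        padicValNat.prime_pow, zero_add]
    have h4 : padicValNat p (Units.torsionOrder F) ≤ padicValNat p (Units.torsionOrder K) :=
      (padicValNat_dvd_iff_le (Units.torsionOrder_ne_zero K)).1 (pow_padicValNat_dvd.trans hdvd)
    refine h4.trans ?_
    rw [IsCyclotomicExtension.Rat.torsionOrder_eq (n := M * p ^ (n + 1)) (K := K)]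
    split_ifs
    · exact h3.le
    · rw [padicValNat.mul two_ne_zero (NeZero.ne _), h2, h3, zero_add]
  · exact NumberField.Units.dvd_torsionOrder_of_isPrimitiveRoot hζ

/-- **Iwasawa's formula for the minus part at the levels `ℚ(ζ_{f p^(n+1)})`.** -/
theorem exists_cyclotomic_linear (hp2 : p ≠ 2) (hg : IsGen p g) {f : ℕ} [NeZero f]
    (hf : f.Coprime p) :
    ∃ (nu : ℤ) (n₀ : ℕ), ∀ n, n₀ ≤ n →
      ∀ (K : Type) [Field K] [NumberField K] [IsCyclotomicExtension {f * p ^ (n + 1)} ℚ K]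
        [IsCMField K],
      (padicValNat p (classNumber K) : ℤ) = padicValNat p (classNumber (maximalRealSubfield K)) +
        (sumL g p (Finset.univ : Finset (DirichletCharacter ℂ f)) + 1) * n + nu := by
  set S : Finset (DirichletCharacter ℂ f) := Finset.univ
  have hform : ∀ (n : ℕ) (K : Type) [Field K] [NumberField K]
      [IsCyclotomicExtension {f * p ^ (n + 1)} ℚ K] [IsCMField K],
      (p : ℝ)⁻¹ ^ padicValNat p (classNumber K) =
        (p : ℝ)⁻¹ ^ (padicValNat p (classNumber (maximalRealSubfield K)) + (n + 1)) *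
          szS hf S n := fun n K _ _ _ _ => by
    haveI : NeZero (f * p ^ (n + 1)) :=
      ⟨Nat.mul_ne_zero (NeZero.ne f) (pow_ne_zero _ hp.out.ne_zero)⟩
    haveI : IsAbelianGalois ℚ K :=
      IsCyclotomicExtension.isAbelianGalois {f * p ^ (n + 1)} ℚ K
    rw [classNumber_eq_szS hp2 hf S n K K (AlgHom.id ℚ K) fun χ _ => iff_of_true
        ((FA.AbelianZeta.mem_fieldChars_iff _ _ _).mpr fun σ hσ => by
          have h1 : σ = 1 := AlgEquiv.ext fun x =>
            (IntermediateField.mem_fixingSubgroup_iff _ _).mp hσ x ⟨x, rfl⟩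
          rw [h1, map_one, Units.val_one, map_one]) (Finset.mem_univ _),
      torsionOrder_eq hp2 hf n K K (AlgHom.id ℚ K)
        ((IsCyclotomicExtension.zeta_spec (f * p ^ (n + 1)) ℚ K).pow
          (Nat.pos_of_ne_zero (NeZero.ne _)) rfl)]
  obtain ⟨nu, n₀, hnu⟩ := exists_linear hp2 hg hf S fun n => by
    haveI : NeZero ((f * p ^ (n + 1) : ℕ) : ℚ) := ⟨Nat.cast_ne_zero.mpr
      (Nat.mul_ne_zero (NeZero.ne f) (pow_ne_zero _ hp.out.ne_zero))⟩
    haveI : IsCyclotomicExtension {f * p ^ (n + 1)} ℚ (CyclotomicField (f * p ^ (n + 1)) ℚ) :=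
      CyclotomicField.isCyclotomicExtension _ ℚ
    haveI : NumberField (CyclotomicField (f * p ^ (n + 1)) ℚ) :=
      IsCyclotomicExtension.numberField {f * p ^ (n + 1)} ℚ _
    haveI := FA.FerreroAbelian.isCMField_level (p := p) (f := f) hp2 n
      (CyclotomicField (f * p ^ (n + 1)) ℚ)
    exact exists_szS_eq_zpow (hform n (CyclotomicField (f * p ^ (n + 1)) ℚ))
  exact ⟨nu + 1, n₀, fun n hn K _ _ _ _ => classNumber_linear (hform n K) (hnu n hn)⟩

end FA.KidaFormula
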