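import Fermat.Agent.KidaFormula.Branch
import Fermat.Agent.KidaFormula.Characters
import Fermat.Agent.FerreroAbelian.MinusGrowth

/-!
# The product over the characters with tame part in a given set

For `p ∤ M` and a set `S` of characters modulo `M`, the product of the sizes of `-B_{1,χ}/2` over
the odd characters modulo `M p^(k+1)` with part modulo `M` in `S` is multiplied at each high level
by `|p| ^ sumL S`, `sumL S` the sum of the exponents of the branches (`szS_succ`).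
-/

set_option autoImplicit false
set_option linter.unusedSectionVars false
set_option linter.style.haveILetI false

noncomputable section

open DirichletCharacter
open FA.IwasawaMinus (IsGen theta term theta_injective theta_pow_card theta_pow_prime_pow phi_pos)
open FA.FerreroAbelian (AlgNum embA sz leftPart oddChars intR char_mem coprime_level)
open scoped Classical

namespace FA.KidaFormula

variable {p : ℕ} [hp : Fact p.Prime] {g : ℕ}

/-- A character with values in the integers of `ℚ̄_p`. -/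
def intChar (p : ℕ) [Fact p.Prime] {m : ℕ} [NeZero m] (χ : DirichletCharacter ℂ m) (a : ZMod m) :
    intR p :=
  ⟨embA p ⟨χ a, char_mem χ a⟩, by
    by_cases ha : IsUnit a
    · obtain ⟨u, rfl⟩ := ha
      refine (FA.IwasawaMinus.norm_eq_one_of_pow (k := Nat.totient m) ?_
        (Nat.totient_pos.2 (NeZero.pos m)).ne').le
      rw [← map_pow, ← map_one (embA p)]
      refine congrArg _ (Subtype.ext ?_)
      rw [SubmonoidClass.coe_pow, OneMemClass.coe_one, ← map_pow, ← Units.val_pow_eq_pow_val,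
        ZMod.pow_totient, Units.val_one, map_one]
    · show ‖_‖ ≤ (1 : ℝ)
      rw [show (⟨χ a, char_mem χ a⟩ : AlgNum) = 0 from Subtype.ext (χ.map_nonunit ha), map_zero,
        norm_zero]
      exact zero_le_one⟩

theorem intChar_one {m : ℕ} [NeZero m] (χ : DirichletCharacter ℂ m) : intChar p χ 1 = 1 :=
  Subtype.ext (by
    show embA p _ = 1
    rw [← map_one (embA p)]
    exact congrArg _ (Subtype.ext (map_one χ)))

theorem intChar_mul {m : ℕ} [NeZero m] (χ : DirichletCharacter ℂ m) (a b : ZMod m) :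
    intChar p χ (a * b) = intChar p χ a * intChar p χ b :=
  Subtype.ext (by
    show embA p _ = embA p _ * embA p _
    rw [← map_mul]
    exact congrArg _ (Subtype.ext (map_mul χ a b)))

/-- The parity of a branch. -/
def Par {m : ℕ} [NeZero m] (ψ : DirichletCharacter ℂ m) (u : (ZMod p)ˣ) : Prop :=
  (intChar p ψ (-1) : PadicAlgCl p) * theta u ^ ((p - 1) / 2) = -1

theorem exists_hasVal (hp2 : p ≠ 2) (hg : IsGen p g) {m : ℕ} [NeZero m] (hm : m.Coprime p)
    (χ : DirichletCharacter ℂ m) {u : (ZMod p)ˣ} (h : Par χ u) :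
    ∃ l, HasVal (fun a => (intChar p χ a : PadicAlgCl p)) g u l := by
  obtain ⟨lam, hlam⟩ := exists_isLam hp2 hg hm (intChar p χ) (intChar_one χ) (intChar_mul χ) u
    (Subtype.ext (by
      show theta u ^ ((p - 1) / 2) * (intChar p χ (-1) : PadicAlgCl p) = -1
      rw [mul_comm]
      exact h))
  exact ⟨_, hasVal_of_isLam hp2 hg hm hlam⟩

/-- The exponent of a branch, at any level. -/
def lInt (g : ℕ) (u : (ZMod p)ˣ) (m : ℕ) (χ : DirichletCharacter ℂ m) : ℤ :=
  if hm : m = 0 then 0 else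
    haveI : NeZero m := ⟨hm⟩
    if h : ∃ l, HasVal (fun a => (intChar p χ a : PadicAlgCl p)) g u l then h.choose else 0

theorem lInt_eq {m : ℕ} [NeZero m] {χ : DirichletCharacter ℂ m} {u : (ZMod p)ˣ} {l : ℤ}
    (h : HasVal (fun a => (intChar p χ a : PadicAlgCl p)) g u l) : lInt g u m χ = l := by
  rw [lInt, dif_neg (NeZero.ne m), dif_pos ⟨l, h⟩]
  exact (Exists.choose_spec (⟨l, h⟩ : ∃ l, _)).unique h

/-- The exponent of the branch of the primitive character. -/
def lVal (g : ℕ) (u : (ZMod p)ˣ) {M : ℕ} (ψ : DirichletCharacter ℂ M) : ℤ :=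
  lInt g u ψ.conductor ψ.primitiveCharacter

theorem par_primitive {M : ℕ} [NeZero M] {ψ : DirichletCharacter ℂ M} [NeZero ψ.conductor]
    {u : (ZMod p)ˣ} (h : Par ψ u) : Par ψ.primitiveCharacter u := by
  unfold Par at h ⊢
  convert h using 2
  show embA p _ = embA p _
  exact congrArg _ (Subtype.ext (FA.AbelianFE.primitiveCharacter_neg_one ψ))

theorem hasVal_lVal (hp2 : p ≠ 2) (hg : IsGen p g) {M : ℕ} [NeZero M] (hM : M.Coprime p)
    (ψ : DirichletCharacter ℂ M) [NeZero ψ.conductor] {u : (ZMod p)ˣ} (h : Par ψ u) :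
    HasVal (fun a => (intChar p ψ.primitiveCharacter a : PadicAlgCl p)) g u (lVal g u ψ) := by
  obtain ⟨l, hl⟩ := exists_hasVal hp2 hg (hM.coprime_dvd_left ψ.conductor_dvd_level)
    ψ.primitiveCharacter (par_primitive h)
  rwa [lVal, lInt_eq hl]

/-- The value at the generator of a character modulo `p^(n+1)`. -/
def charEta (g : ℕ) {n : ℕ} [NeZero (p ^ (n + 1))] (ξ : DirichletCharacter ℂ (p ^ (n + 1))) :
    PadicAlgCl p :=
  embA p ⟨ξ (g : ZMod (p ^ (n + 1))), char_mem ξ _⟩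

theorem charEta_pow {n : ℕ} [NeZero (p ^ (n + 1))] (ξ : DirichletCharacter ℂ (p ^ (n + 1)))
    (i : ℕ) : charEta g ξ ^ i =
      embA p ⟨ξ ((g : ZMod (p ^ (n + 1))) ^ i), char_mem ξ _⟩ := by
  rw [charEta, ← map_pow]
  exact congrArg _ (Subtype.ext (map_pow ξ _ i).symm)

theorem charEta_pow_phi (hg : IsGen p g) {n : ℕ} [NeZero (p ^ (n + 1))]
    (ξ : DirichletCharacter ℂ (p ^ (n + 1))) : charEta g ξ ^ ((p - 1) * p ^ n) = 1 := by
  rw [charEta_pow, ← map_one (embA p)]
  exact congrArg _ (Subtype.ext (by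
    show ξ _ = _
    rw [← hg.2 n, pow_orderOf_eq_one, map_one]
    rfl))

theorem charEta_injective (hg : IsGen p g) {n : ℕ} [NeZero (p ^ (n + 1))]
    {ξ ξ' : DirichletCharacter ℂ (p ^ (n + 1))} (h : charEta g ξ = charEta g ξ') : ξ = ξ' :=
  FA.IwasawaMinus.char_ext hg (congrArg Subtype.val ((embA p).injective h))

/-- Every root of unity of the right order is a value. -/
theorem exists_charEta (hg : IsGen p g) {n : ℕ} [NeZero (p ^ (n + 1))] {x : PadicAlgCl p}
    (hx : x ^ ((p - 1) * p ^ n) = 1) :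
    ∃ ξ : DirichletCharacter ℂ (p ^ (n + 1)), charEta g ξ = x := by
  haveI : NeZero ((p - 1) * p ^ n) := ⟨(phi_pos n).ne'⟩
  obtain ⟨z, hz⟩ := HasEnoughRootsOfUnity.exists_primitiveRoot ℂ ((p - 1) * p ^ n)
  have hmem : z ∈ AlgNum := (mem_algebraicClosure_iff).2
    (IsIntegral.isAlgebraic (IsIntegral.of_pow (NeZero.pos _) (hz.pow_eq_one ▸ isIntegral_one)))
  have hz' : IsPrimitiveRoot (⟨z, hmem⟩ : AlgNum) ((p - 1) * p ^ n) :=
    IsPrimitiveRoot.of_map_of_injective (f := AlgNum.val) hz Subtype.val_injective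
  obtain ⟨i, -, hi⟩ := (hz'.map_of_injective (embA p).injective).eq_pow_of_pow_eq_one hx
  obtain ⟨ξ, hξ⟩ := FA.IwasawaMinus.exists_char hg (n := n) (η := z ^ i)
    (by rw [← pow_mul, mul_comm, pow_mul, hz.pow_eq_one, one_pow])
  refine ⟨ξ, ?_⟩
  rw [← hi, ← map_pow]
  exact congrArg _ (Subtype.ext (hξ.trans (SubmonoidClass.coe_pow (⟨z, hmem⟩ : AlgNum) i).symm))

/-- The roots `ζ - 1`. -/
theorem prod_norm_sub_one (k : ℕ) :
    ∏ ζ ∈ primitiveRoots (p ^ (k + 1)) (PadicAlgCl p), ‖ζ - 1‖ = (p : ℝ)⁻¹ := by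
  haveI : NeZero (p ^ (k + 1)) := ⟨pow_ne_zero _ hp.out.ne_zero⟩
  obtain ⟨ζ, hζ⟩ := HasEnoughRootsOfUnity.exists_primitiveRoot (PadicAlgCl p) (p ^ (k + 1))
  rw [Finset.prod_congr rfl (g := fun _ => ‖ζ - 1‖) fun μ hμ =>
    norm_sub_one_eq ((mem_primitiveRoots (NeZero.pos _)).1 hμ) hζ, Finset.prod_const,
    hζ.card_primitiveRoots, Nat.totient_prime_pow_succ hp.out, mul_comm,
    FA.IwasawaMinus.norm_sub_one_pow hζ]

theorem theta_mul_pow {k : ℕ} {ζ : PadicAlgCl p} (u : (ZMod p)ˣ) (i : ℕ)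
    (hζ : ζ ^ p ^ (k + 1) = 1) : (theta u * ζ) ^ (p ^ (k + 1) * i) = theta u ^ i := by
  rw [mul_pow, pow_mul ζ, hζ, one_pow, mul_one, pow_mul, theta_pow_prime_pow]

theorem theta_mul_injective {k : ℕ} {ζ ζ' : PadicAlgCl p} {u u' : (ZMod p)ˣ}
    (hζ : ζ ^ p ^ (k + 1) = 1) (hζ' : ζ' ^ p ^ (k + 1) = 1) (h : theta u * ζ = theta u' * ζ') :
    u = u' ∧ ζ = ζ' := by
  have h1 := congrArg (fun t => t ^ (p ^ (k + 1) * 1)) h
  simp only [theta_mul_pow u 1 hζ, theta_mul_pow u' 1 hζ', pow_one] at h1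
  obtain rfl := theta_injective h1
  exact ⟨rfl, mul_left_cancel₀ (FA.IwasawaMinus.theta_ne_zero u) h⟩

/-- A value `θ(u) ζ` of full level. -/
theorem theta_mul_pow_ne_one {k : ℕ} {ζ : PadicAlgCl p} (u : (ZMod p)ˣ)
    (hζ : IsPrimitiveRoot ζ (p ^ (k + 1))) : (theta u * ζ) ^ ((p - 1) * p ^ k) ≠ 1 := fun h => by
  rw [mul_pow, pow_mul (theta u), theta_pow_card, one_pow, one_mul] at h
  have h1 := (hζ.pow_eq_one_iff_dvd _).1 h
  rw [pow_succ', Nat.mul_dvd_mul_iff_right (pow_pos hp.out.pos k)] at h1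
  have := Nat.le_of_dvd (Nat.sub_pos_of_lt hp.out.one_lt) h1
  have := hp.out.one_lt
  omega

/-- The parity of a product of characters. -/
theorem odd_combine_iff (hp2 : p ≠ 2) (hg : IsGen p g) {M : ℕ} [NeZero M] {k : ℕ}
    [NeZero (p ^ (k + 1 + 1))] (h : M.Coprime (p ^ (k + 1 + 1))) (ψ : DirichletCharacter ℂ M)
    (ξ : DirichletCharacter ℂ (p ^ (k + 1 + 1))) {u : (ZMod p)ˣ} {ζ : PadicAlgCl p}
    (hζ : ζ ^ p ^ (k + 1) = 1) (hξ : charEta g ξ = theta u * ζ) :
    (combine h ψ ξ).Odd ↔ Par ψ u := by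
  have hm1 : embA p ⟨ξ (-1), char_mem ξ _⟩ = theta u ^ ((p - 1) / 2) := by
    rw [← theta_mul_pow u _ hζ, ← hξ, charEta_pow]
    refine congrArg _ (Subtype.ext ?_)
    show ξ (-1) = ξ _
    rw [mul_comm, ← Nat.mul_div_right_comm ((hp.out.odd_of_ne_two hp2).tsub_odd odd_one).two_dvd,
      FA.IwasawaMinus.pow_half_eq_neg_one hp2 hg]
  unfold Par DirichletCharacter.Odd
  rw [← hm1, combine_neg_one]
  show _ ↔ embA p _ * embA p _ = -1
  rw [← map_mul, ← map_one (embA p), ← map_neg, (embA p).injective.eq_iff, Subtype.ext_iff]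
  rfl

/-- **The size at a character of high level.** -/
theorem eventually_sz_combine (hp2 : p ≠ 2) (hg : IsGen p g) {M : ℕ} [NeZero M]
    (hM : M.Coprime p) (ψ : DirichletCharacter ℂ M) {u : (ZMod p)ˣ} (hu : Par ψ u) :
    ∀ᶠ k in Filter.atTop, ∀ [NeZero (p ^ (k + 1 + 1))]
      (ξ : DirichletCharacter ℂ (p ^ (k + 1 + 1))) (ζ : PadicAlgCl p),
      IsPrimitiveRoot ζ (p ^ (k + 1)) → charEta g ξ = theta u * ζ →
      sz p (term (combine (coprime_level hM (k + 1)) ψ ξ)) = ‖ζ - 1‖ ^ lVal g u ψ := by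
  haveI : NeZero ψ.conductor := ⟨ψ.conductor_ne_zero⟩
  have hd : ψ.conductor.Coprime p := hM.coprime_dvd_left ψ.conductor_dvd_level
  filter_upwards [hasVal_lVal hp2 hg hM ψ hu] with k hk _ ξ ζ hζ hξ
  -- the part of `p`-power level is primitive
  have hprim : ξ.IsPrimitive := by
    obtain ⟨j, hj, hc⟩ := (Nat.dvd_prime_pow hp.out).1 ξ.conductor_dvd_level
    rw [isPrimitive_def, hc]
    refine congrArg (p ^ ·) (le_antisymm hj (not_lt.1 fun hlt => theta_mul_pow_ne_one u hζ ?_))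
    have hdvd : p ^ (k + 1) ∣ p ^ (k + 1 + 1) := pow_dvd_pow p (Nat.le_succ _)
    obtain ⟨_, ξ₀, hξ₀⟩ := (mem_conductorSet_iff_conductor_dvd ξ hdvd).2
      (hc ▸ pow_dvd_pow p (Nat.lt_succ_iff.1 hlt))
    haveI : NeZero (p ^ (k + 1)) := ⟨pow_ne_zero _ hp.out.ne_zero⟩
    have e : charEta g ξ = charEta g ξ₀ := congrArg _ (Subtype.ext (by
      show ξ _ = ξ₀ _
      rw [← FA.IwasawaMinus.genUnit_val hg (k + 1), hξ₀, changeLevel_eq_cast_of_dvd,
        FA.IwasawaMinus.genUnit_val, ← ZMod.castHom_apply (h := hdvd) (R := ZMod (p ^ (k + 1))),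
        map_natCast]))
    rw [← hξ, e]
    exact charEta_pow_phi hg ξ₀
  set h0 := coprime_level hd (k + 1)
  haveI : NeZero (ψ.conductor * p ^ (k + 1 + 1)) := neZero_prod
  set χ₀ := combine h0 ψ.primitiveCharacter ξ
  have hχ₀ : χ₀.IsPrimitive := isPrimitive_combine h0 ψ.primitiveCharacter_isPrimitive hprim
  have hdvd : ψ.conductor * p ^ (k + 1 + 1) ∣ M * p ^ (k + 1 + 1) :=
    mul_dvd_mul ψ.conductor_dvd_level dvd_rfl
  have hlift : changeLevel hdvd χ₀ = combine (coprime_level hM (k + 1)) ψ ξ := by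
    rw [changeLevel_combine h0 (coprime_level hM (k + 1)) ψ.conductor_dvd_level dvd_rfl,
      changeLevel_primitiveCharacter, changeLevel_self]
  rw [FA.FerreroAbelian.sz_term hp2,
    FA.AbelianFE.primitive_unique hdvd hχ₀ hlift FA.AbelianFE.bernoulliOne',
    FA.AbelianFE.bernoulliOne'_eq,
    FA.FerreroAbelian.sz_of_mem (FA.FerreroAbelian.bernoulliOne_mem χ₀)]
  have hB : (⟨FA.AbelianFE.bernoulliOne χ₀, FA.FerreroAbelian.bernoulliOne_mem χ₀⟩ : AlgNum) =
      FA.FerreroAbelian.bv ψ.conductor p g (k + 1)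
        (fun a => (⟨ψ.primitiveCharacter a, char_mem _ a⟩ : AlgNum))
        ⟨ξ (g : ZMod (p ^ (k + 1 + 1))), char_mem ξ _⟩ := by
    refine Subtype.ext ?_
    rw [FA.FerreroAbelian.coe_bv]
    refine (FA.FerreroAbelian.bernoulliOne_eq_bv hg hd (k + 1) χ₀).trans ?_
    simp only [χ₀, h0, leftPart_combine, combine_pair, map_one, one_mul]
  rw [hB, FA.FerreroAbelian.map_bv]
  have := hk ζ hζ
  rw [← hξ] at this
  exact this

theorem zpow_finsetSum {ι : Type*} {x : ℝ} (hx : x ≠ 0) (s : Finset ι) (f : ι → ℤ) :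
    x ^ ∑ i ∈ s, f i = ∏ i ∈ s, x ^ f i := by
  induction s using Finset.induction_on with
  | empty => simp
  | insert a s ha ih => rw [Finset.sum_insert ha, Finset.prod_insert ha, zpow_add₀ hx, ih]

/-- The sum of the exponents of the odd branches. -/
def sumL (g : ℕ) {M : ℕ} [NeZero M] (p : ℕ) [Fact p.Prime]
    (S : Finset (DirichletCharacter ℂ M)) : ℤ :=
  ∑ ψ ∈ S, ∑ u ∈ Finset.univ.filter (fun u : (ZMod p)ˣ => Par ψ u), lVal g u ψ

/-- The product over the odd characters with tame part in `S`. -/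
def szS {M : ℕ} [NeZero M] (hM : M.Coprime p) (S : Finset (DirichletCharacter ℂ M)) (k : ℕ) : ℝ :=
  ∏ χ ∈ (oddChars (M * p ^ (k + 1))).filter (fun χ => leftPart (coprime_level hM k) χ ∈ S),
    sz p (term χ)

theorem szS_nonneg {M : ℕ} [NeZero M] (hM : M.Coprime p) (S : Finset (DirichletCharacter ℂ M))
    (k : ℕ) : 0 ≤ szS hM S k :=
  Finset.prod_nonneg fun _ _ => FA.FerreroAbelian.sz_nonneg _

/-- **One level.** -/
theorem eventually_szS_succ (hp2 : p ≠ 2) (hg : IsGen p g) {M : ℕ} [NeZero M] (hM : M.Coprime p)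
    (S : Finset (DirichletCharacter ℂ M)) :
    ∀ᶠ k in Filter.atTop, szS hM S (k + 1) = szS hM S k * ((p : ℝ)⁻¹) ^ sumL g p S := by
  have hev : ∀ᶠ k in Filter.atTop, ∀ ψ ∈ S, ∀ u : (ZMod p)ˣ, Par ψ u →
      ∀ [NeZero (p ^ (k + 1 + 1))] (ξ : DirichletCharacter ℂ (p ^ (k + 1 + 1)))
        (ζ : PadicAlgCl p), IsPrimitiveRoot ζ (p ^ (k + 1)) → charEta g ξ = theta u * ζ →
        sz p (term (combine (coprime_level hM (k + 1)) ψ ξ)) = ‖ζ - 1‖ ^ lVal g u ψ :=
    (Filter.eventually_all_finset _).2 fun ψ _ => Filter.eventually_all.2 fun u => by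
      by_cases hu : Par ψ u
      · exact (eventually_sz_combine hp2 hg hM ψ hu).mono fun k hk _ => hk
      · exact Filter.Eventually.of_forall fun k h => absurd h hu
  filter_upwards [hev] with k hk
  haveI : NeZero (p ^ (k + 1)) := ⟨pow_ne_zero _ hp.out.ne_zero⟩
  haveI : NeZero (p ^ (k + 1 + 1)) := ⟨pow_ne_zero _ hp.out.ne_zero⟩
  set h1 := coprime_level hM (k + 1)
  set h0 := coprime_level hM k
  have hdvd : M * p ^ (k + 1) ∣ M * p ^ (k + 1 + 1) :=
    mul_dvd_mul_left M (pow_dvd_pow p (Nat.le_succ _))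
  set O := (oddChars (M * p ^ (k + 1 + 1))).filter (fun χ => leftPart h1 χ ∈ S)
  set P : DirichletCharacter ℂ (M * p ^ (k + 1 + 1)) → Prop :=
    fun χ => charEta g (rightPart h1 χ) ^ ((p - 1) * p ^ k) = 1 with hP
  -- lifting from the level below
  have hup : ∀ χ₀ : DirichletCharacter ℂ (M * p ^ (k + 1)), changeLevel hdvd χ₀ =
      combine h1 (leftPart h0 χ₀)
        (changeLevel (pow_dvd_pow p (Nat.le_succ (k + 1))) (rightPart h0 χ₀)) := fun χ₀ => by
    conv_lhs => rw [← combine_parts h0 χ₀]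
    rw [changeLevel_combine h0 h1 dvd_rfl (pow_dvd_pow p (Nat.le_succ (k + 1))), changeLevel_self]
  have hlow : ∀ ξ₀ : DirichletCharacter ℂ (p ^ (k + 1)),
      charEta g (changeLevel (pow_dvd_pow p (Nat.le_succ (k + 1))) ξ₀) = charEta g ξ₀ :=
      fun ξ₀ => congrArg _ (Subtype.ext (by
    show changeLevel _ ξ₀ _ = ξ₀ _
    rw [← FA.IwasawaMinus.genUnit_val hg (k + 1), changeLevel_eq_cast_of_dvd,
      FA.IwasawaMinus.genUnit_val, ← ZMod.castHom_apply (R := ZMod (p ^ (k + 1)))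
        (h := pow_dvd_pow p (Nat.le_succ (k + 1))), map_natCast]))
  have hneg : ∀ χ₀ : DirichletCharacter ℂ (M * p ^ (k + 1)),
      changeLevel hdvd χ₀ (-1) = χ₀ (-1) := fun χ₀ => by
    show changeLevel hdvd χ₀
      ((-1 : (ZMod (M * p ^ (k + 1 + 1)))ˣ) : ZMod (M * p ^ (k + 1 + 1))) = _
    rw [changeLevel_eq_cast_of_dvd _ hdvd, Units.val_neg, Units.val_one,
      ← ZMod.castHom_apply (h := hdvd) (R := ZMod (M * p ^ (k + 1))), map_neg, map_one]
  have hold : ∏ χ ∈ O.filter P, sz p (term χ) = szS hM S k := by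
    symm
    refine Finset.prod_bij (fun χ₀ _ => changeLevel hdvd χ₀) (fun χ₀ h => ?_)
      (fun _ _ _ _ e => changeLevel_injective hdvd e) (fun χ h => ?_) fun χ₀ _ => ?_
    · obtain ⟨ho, hS⟩ := Finset.mem_filter.1 h
      refine Finset.mem_filter.2 ⟨Finset.mem_filter.2 ⟨Finset.mem_filter.2
        ⟨Finset.mem_univ _, ?_⟩, ?_⟩, ?_⟩
      · show changeLevel hdvd χ₀ (-1) = -1
        rw [hneg]
        exact (Finset.mem_filter.mp ho).2
      · rw [hup, leftPart_combine]
        exact hS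
      · simp only [hP, hup, rightPart_combine, hlow]
        exact charEta_pow_phi hg _
    · obtain ⟨hO, hPχ⟩ := Finset.mem_filter.mp h
      obtain ⟨ho, hS⟩ := Finset.mem_filter.1 hO
      obtain ⟨ξ₀, hξ₀⟩ := exists_charEta hg hPχ
      have e : changeLevel hdvd (combine h0 (leftPart h1 χ) ξ₀) = χ := by
        rw [hup, leftPart_combine, rightPart_combine,
          charEta_injective hg ((hlow ξ₀).trans hξ₀), combine_parts]
      refine ⟨_, Finset.mem_filter.2 ⟨Finset.mem_filter.2 ⟨Finset.mem_univ _, ?_⟩, ?_⟩, e⟩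
      · show combine h0 (leftPart h1 χ) ξ₀ (-1) = -1
        rw [← hneg, e]
        exact (Finset.mem_filter.mp ho).2
      · rw [leftPart_combine]
        exact hS
    · haveI : NeZero χ₀.conductor := ⟨χ₀.conductor_ne_zero⟩
      rw [term, term, FA.AbelianFE.primitive_unique (χ₀.conductor_dvd_level.trans hdvd)
        χ₀.primitiveCharacter_isPrimitive (χ := changeLevel hdvd χ₀)
        (by rw [changeLevel_trans _ χ₀.conductor_dvd_level hdvd, changeLevel_primitiveCharacter])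
        FA.AbelianFE.bernoulliOne']
  -- the new characters
  set I := S.sigma fun ψ => (Finset.univ.filter fun u : (ZMod p)ˣ => Par ψ u) ×ˢ
    primitiveRoots (p ^ (k + 1)) (PadicAlgCl p) with hI
  have hmemI : ∀ x ∈ I, x.1 ∈ S ∧ Par x.1 x.2.1 ∧
      IsPrimitiveRoot x.2.2 (p ^ (k + 1)) := fun x hx => by
    simp only [hI, Finset.mem_sigma, Finset.mem_product, Finset.mem_filter, Finset.mem_univ,
      true_and, mem_primitiveRoots (NeZero.pos (p ^ (k + 1)))] at hx
    exact ⟨hx.1, hx.2.1, hx.2.2⟩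
  have hex : ∀ x ∈ I, ∃ ξ : DirichletCharacter ℂ (p ^ (k + 1 + 1)),
      charEta g ξ = theta x.2.1 * x.2.2 := fun x hx => exists_charEta hg (by
    rw [mul_pow, pow_mul (theta _), theta_pow_card, one_pow, one_mul, mul_comm (p - 1), pow_mul,
      (hmemI x hx).2.2.pow_eq_one, one_pow])
  have hnew : ∏ χ ∈ O.filter (fun χ => ¬ P χ), sz p (term χ) =
      ∏ x ∈ I, ‖x.2.2 - 1‖ ^ lVal g x.2.1 x.1 := by
    symm
    refine Finset.prod_bij (fun x hx => combine h1 x.1 (hex x hx).choose) (fun x hx => ?_)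
      (fun x hx y hy e => ?_) (fun χ hχ => ?_) fun x hx => ?_
    · obtain ⟨hS, hu, hζ⟩ := hmemI x hx
      refine Finset.mem_filter.2 ⟨Finset.mem_filter.2 ⟨Finset.mem_filter.2 ⟨Finset.mem_univ _,
        ?_⟩, ?_⟩, ?_⟩
      · exact (odd_combine_iff hp2 hg h1 x.1 _ hζ.pow_eq_one (hex x hx).choose_spec).2 hu
      · rw [leftPart_combine]
        exact hS
      · simp only [hP, rightPart_combine, (hex x hx).choose_spec]
        exact theta_mul_pow_ne_one _ hζ
    · obtain ⟨-, -, hζ⟩ := hmemI x hx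
      obtain ⟨-, -, hζ'⟩ := hmemI y hy
      have e1 := congrArg (leftPart h1) e
      have e2 := congrArg (fun χ => charEta g (rightPart h1 χ)) e
      simp only [leftPart_combine, rightPart_combine, (hex x hx).choose_spec,
        (hex y hy).choose_spec] at e1 e2
      obtain ⟨e3, e4⟩ := theta_mul_injective hζ.pow_eq_one hζ'.pow_eq_one e2
      obtain ⟨x₁, x₂, x₃⟩ := x
      obtain ⟨y₁, y₂, y₃⟩ := y
      simp only at e1 e3 e4
      rw [e1, e3, e4]
    · obtain ⟨hO, hPχ⟩ := Finset.mem_filter.1 hχ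
      obtain ⟨ho, hS⟩ := Finset.mem_filter.1 hO
      obtain ⟨u, ζ, hζ, hu⟩ := FA.IwasawaMinus.exists_decomposition (p := p) (n := k + 1)
        (η := charEta g (rightPart h1 χ)) (charEta_pow_phi hg _)
      have hprim : IsPrimitiveRoot ζ (p ^ (k + 1)) := by
        refine IsPrimitiveRoot.iff_orderOf.mpr (orderOf_eq_prime_pow (fun e0 => hPχ ?_) hζ)
        simp only [hP, ← hu]
        rw [mul_pow, pow_mul (theta u), theta_pow_card, one_pow, one_mul, mul_comm, pow_mul, e0,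
          one_pow]
      have hodd : (combine h1 (leftPart h1 χ) (rightPart h1 χ)).Odd := by
        rw [combine_parts]
        exact (Finset.mem_filter.1 ho).2
      have hx : (⟨leftPart h1 χ, (u, ζ)⟩ :
          (_ : DirichletCharacter ℂ M) × ((ZMod p)ˣ × PadicAlgCl p)) ∈ I := by
        simp only [hI, Finset.mem_sigma, Finset.mem_product, Finset.mem_filter, Finset.mem_univ,
          true_and, mem_primitiveRoots (NeZero.pos (p ^ (k + 1)))]
        exact ⟨hS, (odd_combine_iff hp2 hg h1 _ _ hζ hu.symm).1 hodd, hprim⟩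
      refine ⟨_, hx, ?_⟩
      rw [charEta_injective hg ((hex _ hx).choose_spec.trans hu)]
      exact combine_parts h1 χ
    · obtain ⟨hS, hu, hζ⟩ := hmemI x hx
      exact (hk x.1 hS x.2.1 hu _ x.2.2 hζ (hex x hx).choose_spec).symm
  rw [szS, ← Finset.prod_filter_mul_prod_filter_not O P, hold, hnew]
  congr 1
  rw [hI, Finset.prod_sigma, sumL]
  have hπ : ((p : ℝ)⁻¹) ≠ 0 := inv_ne_zero (Nat.cast_ne_zero.2 hp.out.ne_zero)
  rw [zpow_finsetSum hπ]
  refine Finset.prod_congr rfl fun ψ _ => ?_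
  rw [Finset.prod_product, zpow_finsetSum hπ]
  exact Finset.prod_congr rfl fun u _ => by
    dsimp only
    rw [Finset.prod_zpow, prod_norm_sub_one]

end FA.KidaFormula
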