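import Fermat.Agent.KidaFormula.Levels
import Fermat.Agent.KidaFormula.Euler

/-!
# Sinnott's congruence

A character of `p`-power order of conductor `ℓ ≡ 1 (mod p)` is congruent to the trivial one, so a
branch twisted by it has the exponent of the branch with the Euler factor at `ℓ` adjoined: it grows
by `p ^ v` if the branch is trivial at `ℓ` and is unchanged otherwise, `p ^ (v + 1) ∥ ℓ - 1`
(`lVal_combine`).
-/

set_option autoImplicit false
set_option linter.unusedSectionVars false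
set_option linter.style.haveILetI false

noncomputable section

open DirichletCharacter
open FA.IwasawaMinus (IsGen theta theta_pow_card norm_eq_one_of_pow phi_pos)
open FA.FerreroAbelian (AlgNum embA intR maxId mem_maxId thetaO char_mem)
open scoped Classical

namespace FA.KidaFormula

variable {p : ℕ} [hp : Fact p.Prime] {g : ℕ}

/-- A root of unity of `p`-power order is `1` in the residue field. -/
theorem norm_sub_one_lt_of_pow {x : PadicAlgCl p} {a : ℕ} (h : x ^ p ^ a = 1) : ‖x - 1‖ < 1 := by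
  obtain ⟨i, -, hi⟩ := (Nat.dvd_prime_pow hp.out).1 (orderOf_dvd_of_pow_eq_one h)
  rcases i with _ | i
  · rw [pow_zero, orderOf_eq_one_iff] at hi
    rw [hi, sub_self, norm_zero]
    exact one_pos
  · exact FA.IwasawaMinus.norm_sub_one_lt (IsPrimitiveRoot.iff_orderOf.2 hi)

/-- A root of unity of order prime to `p` congruent to `1` is `1`. -/
theorem eq_one_of_norm_sub_one_lt {x : PadicAlgCl p} {m : ℕ} (hm : ¬ p ∣ m) (h : x ^ m = 1)
    (hlt : ‖x - 1‖ < 1) : x = 1 := by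
  by_contra hne
  have hx1 : ‖x‖ = 1 := norm_eq_one_of_pow h fun e => hm (e ▸ dvd_zero p)
  have hS : ∑ i ∈ Finset.range m, x ^ i = 0 := by
    have h1 := geom_sum_mul x m
    rw [h, sub_self] at h1
    exact (mul_eq_zero.mp h1).resolve_right (sub_ne_zero.mpr hne)
  have h2 : ‖∑ i ∈ Finset.range m, (x ^ i - 1)‖ ≤ ‖x - 1‖ :=
    IsUltrametricDist.norm_sum_le_of_forall_le_of_nonneg (norm_nonneg _) fun i _ =>
      FA.IwasawaMinus.norm_pow_sub_one_le hx1.le i
  rw [Finset.sum_sub_distrib, hS, zero_sub, norm_neg, Finset.sum_const, Finset.card_range,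
    nsmul_eq_mul, mul_one, FA.IwasawaMinus.norm_natCast_of_not_dvd hm] at h2
  exact absurd h2 (not_le.2 hlt)

/-- **The size of an Euler factor at a prime `ℓ ≡ 1 (mod p)`.** -/
theorem norm_euler (hg : IsGen p g) {ℓ v k t : ℕ} (hl1 : 1 < ℓ) (hv : p ^ (v + 1) ∣ ℓ - 1)
    (hv' : ¬ p ^ (v + 1 + 1) ∣ ℓ - 1) (hk : v < k)
    (ht : (g : ZMod (p ^ (k + 1 + 1))) ^ t = (ℓ : ZMod (p ^ (k + 1 + 1)))) (u : (ZMod p)ˣ)
    {ζ : PadicAlgCl p} (hζ : IsPrimitiveRoot ζ (p ^ (k + 1))) :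
    ∀ {x : PadicAlgCl p} {m : ℕ}, ¬ p ∣ m → (x = 0 ∨ x ^ m = 1) →
      ‖1 - x * (theta u * ζ) ^ t‖ = if x = 1 then ‖ζ - 1‖ ^ p ^ v else 1 := by
  have hcast : ∀ j, j + 1 ≤ k + 1 + 1 →
      ((ℓ : ZMod (p ^ (j + 1))) = 1 ↔ (p - 1) * p ^ j ∣ t) := fun j hj => by
    have h := congrArg (ZMod.castHom (pow_dvd_pow p hj) (ZMod (p ^ (j + 1)))) ht
    rw [map_natCast, map_pow, map_natCast] at h
    rw [← hg.2 j, orderOf_dvd_iff_pow_eq_one, h]
  have hmod : ∀ j, ((ℓ : ZMod (p ^ (j + 1))) = 1 ↔ p ^ (j + 1) ∣ ℓ - 1) := fun j => by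
    rw [← ZMod.natCast_eq_zero_iff, Nat.cast_sub hl1.le, Nat.cast_one, sub_eq_zero]
  have h1 : (p - 1) * p ^ v ∣ t := (hcast v (by omega)).1 ((hmod v).2 hv)
  have h2 : ¬ (p - 1) * p ^ (v + 1) ∣ t := fun h =>
    hv' ((hmod (v + 1)).1 ((hcast (v + 1) (by omega)).2 h))
  have hθ : theta u ^ t = 1 := by
    obtain ⟨r, rfl⟩ := (dvd_mul_right (p - 1) (p ^ v)).trans h1
    rw [pow_mul, theta_pow_card, one_pow]
  obtain ⟨r, hr⟩ := (dvd_mul_left (p ^ v) (p - 1)).trans h1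
  have hr' : ¬ p ∣ r := fun hpr => h2 (by
    have hcop : Nat.Coprime (p - 1) (p ^ (v + 1)) := Nat.Coprime.pow_right _ (Nat.coprime_comm.1
      (hp.out.coprime_iff_not_dvd.2 fun h => by
        have := Nat.le_of_dvd (Nat.sub_pos_of_lt hp.out.one_lt) h
        have := hp.out.one_lt
        omega))
    exact hcop.mul_dvd_of_dvd_of_dvd ((dvd_mul_right _ _).trans h1)
      (by rw [pow_succ, hr]; exact mul_dvd_mul_left _ hpr))
  have hprim : IsPrimitiveRoot (ζ ^ t) (p ^ (k - v + 1)) := by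
    rw [hr, pow_mul]
    refine IsPrimitiveRoot.pow_of_coprime (hζ.pow (pow_pos hp.out.pos _) ?_) r
      ((Nat.coprime_comm.1 (hp.out.coprime_iff_not_dvd.2 hr')).pow_right _)
    rw [← pow_add]
    congr 1
    omega
  have hρ : ‖ζ ^ t - 1‖ = ‖ζ - 1‖ ^ p ^ v := by
    refine (pow_left_inj₀ (norm_nonneg _) (pow_nonneg (norm_nonneg _) _)
      (phi_pos (p := p) (k - v)).ne').1 ?_
    rw [FA.IwasawaMinus.norm_sub_one_pow hprim, ← pow_mul,
      show p ^ v * ((p - 1) * p ^ (k - v)) = (p - 1) * p ^ k by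
        rw [mul_left_comm, ← pow_add, Nat.add_sub_cancel' hk.le],
      FA.IwasawaMinus.norm_sub_one_pow hζ]
  intro x m hm hx
  rw [mul_pow, hθ, one_mul]
  split_ifs with hx1
  · rw [hx1, one_mul, norm_sub_rev, hρ]
  rcases hx with rfl | hx
  · rw [zero_mul, sub_zero, norm_one]
  have hxn : ‖x‖ = 1 := norm_eq_one_of_pow hx fun e => hm (e ▸ dvd_zero p)
  have hlt : ‖x * (1 - ζ ^ t)‖ < ‖1 - x‖ := by
    refine lt_of_lt_of_le ?_ (not_lt.1 fun hlt => hx1 (eq_one_of_norm_sub_one_lt hm hx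
      (by rwa [norm_sub_rev])))
    rw [norm_mul, hxn, one_mul, norm_sub_rev]
    exact FA.IwasawaMinus.norm_sub_one_lt hprim
  rw [show 1 - x * ζ ^ t = x * (1 - ζ ^ t) + (1 - x) by ring,
    IsUltrametricDist.norm_add_eq_max_of_norm_ne_norm hlt.ne, max_eq_right hlt.le]
  refine le_antisymm ?_ (not_lt.1 fun hlt => hx1 (eq_one_of_norm_sub_one_lt hm hx
      (by rwa [norm_sub_rev])))
  rw [sub_eq_add_neg]
  exact (IsUltrametricDist.norm_add_le_max _ _).trans
    (max_le norm_one.le (by rw [norm_neg, hxn]))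

/-- A power of a character as a function. -/
theorem pow_char_eq_one {A : ℕ} [NeZero A] {χ : DirichletCharacter ℂ A} {m : ℕ} (h : χ ^ m = 1)
    {a : ZMod A} (ha : IsUnit a) : χ a ^ m = 1 := by
  obtain ⟨u, rfl⟩ := ha
  rw [← MulChar.pow_apply_coe, h, MulChar.one_apply_coe]

/-- A character of odd order is even. -/
theorem neg_one_of_pow {A : ℕ} [NeZero A] {χ : DirichletCharacter ℂ A} {m : ℕ} (hm : Odd m)
    (h : χ ^ m = 1) : χ (-1) = 1 := by
  have h1 := pow_char_eq_one h (isUnit_one.neg : IsUnit (-1 : ZMod A))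
  have h2 : χ (-1) ^ 2 = 1 := by rw [← map_pow, neg_one_sq, map_one]
  obtain ⟨r, rfl⟩ := hm
  rwa [pow_succ, pow_mul, h2, one_pow, one_mul] at h1

variable {ℓ : ℕ} [hl : Fact ℓ.Prime] [NeZero ℓ]

/-- **Sinnott's congruence.** -/
theorem lVal_combine (hp2 : p ≠ 2) (hg : IsGen p g) (hne : ℓ ≠ p) {f : ℕ} [NeZero f]
    (hf : f.Coprime p) (hfl : f.Coprime ℓ) (hφ : ¬ p ∣ Nat.totient f) {v : ℕ}
    (hv : p ^ (v + 1) ∣ ℓ - 1) (hv' : ¬ p ^ (v + 1 + 1) ∣ ℓ - 1)
    (ψ₁ : DirichletCharacter ℂ f) {ψ₂ : DirichletCharacter ℂ ℓ} (h2 : ψ₂ ≠ 1) {a : ℕ}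
    (hord : ψ₂ ^ p ^ a = 1) {u : (ZMod p)ˣ} (hu : Par ψ₁ u) :
    lVal g u (combine hfl ψ₁ ψ₂) =
      lVal g u ψ₁ + if ψ₁ (ℓ : ZMod f) = 1 then (p ^ v : ℕ) else 0 := by
  haveI : NeZero ψ₁.conductor := ⟨ψ₁.conductor_ne_zero⟩
  set d := ψ₁.conductor
  have hdl : d.Coprime ℓ := hfl.coprime_dvd_left ψ₁.conductor_dvd_level
  have hd : d.Coprime p := hf.coprime_dvd_left ψ₁.conductor_dvd_level
  have hlp : ℓ.Coprime p := (Nat.coprime_primes hl.out hp.out).2 hne
  have hprim₂ : ψ₂.IsPrimitive := by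
    rw [isPrimitive_def]
    exact ((Nat.dvd_prime hl.out).1 ψ₂.conductor_dvd_level).resolve_left fun e =>
      h2 (eq_one_iff_conductor_eq_one.2 e)
  set χ₀ := combine hdl ψ₁.primitiveCharacter ψ₂
  have hlift : changeLevel (mul_dvd_mul ψ₁.conductor_dvd_level dvd_rfl) χ₀ =
      combine hfl ψ₁ ψ₂ := by
    rw [changeLevel_combine hdl hfl ψ₁.conductor_dvd_level dvd_rfl,
      changeLevel_primitiveCharacter, changeLevel_self]
  rw [show lVal g u (combine hfl ψ₁ ψ₂) = lInt g u (d * ℓ) χ₀ from FA.AbelianFE.primitive_unique _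
    (isPrimitive_combine hdl ψ₁.primitiveCharacter_isPrimitive hprim₂) hlift (lInt g u)]
  -- the congruent imprimitive branch
  set χ₁ : ZMod (d * ℓ) → intR p := impr ℓ (intChar p ψ₁.primitiveCharacter)
  have hcrt : ∀ x : ZMod (d * ℓ), (ZMod.chineseRemainder hdl x).1 =
      ZMod.castHom (dvd_mul_right d ℓ) (ZMod d) x ∧ (ZMod.chineseRemainder hdl x).2 =
      ZMod.castHom (dvd_mul_left ℓ d) (ZMod ℓ) x := fun x => by
    rw [← ZMod.natCast_zmod_val x, map_natCast, map_natCast, map_natCast]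
    exact ⟨Prod.fst_natCast _, Prod.snd_natCast _⟩
  have hcong : ∀ x, intChar p χ₀ x - χ₁ x ∈ maxId p := fun x => by
    obtain ⟨e1, e2⟩ := hcrt x
    rw [mem_maxId]
    simp only [χ₁, impr]
    split_ifs with hx
    · have h0 : χ₀ x = 0 := by rw [combine_apply, e2, hx, ψ₂.map_nonunit not_isUnit_zero, mul_zero]
      rw [sub_zero]
      show ‖embA p _‖ < 1
      rw [show (⟨χ₀ x, char_mem χ₀ x⟩ : AlgNum) = 0 from Subtype.ext h0, map_zero, norm_zero]
      exact one_pos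
    · set y := ZMod.castHom (dvd_mul_right d ℓ) (ZMod d) x
      set z := ZMod.castHom (dvd_mul_left ℓ d) (ZMod ℓ) x
      have h : (intChar p χ₀ x : PadicAlgCl p) =
          (intChar p ψ₁.primitiveCharacter y : PadicAlgCl p) * (intChar p ψ₂ z : PadicAlgCl p) := by
        show embA p _ = embA p _ * embA p _
        rw [← map_mul]
        exact congrArg _ (Subtype.ext (by
          show χ₀ x = _
          rw [combine_apply, e1, e2]
          rfl))
      show ‖(intChar p χ₀ x : PadicAlgCl p) - intChar p ψ₁.primitiveCharacter y‖ < 1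
      rw [h, ← mul_sub_one, norm_mul]
      refine mul_lt_one_of_nonneg_of_lt_one_right (FA.FerreroAbelian.norm_intR_le _)
        (norm_nonneg _) (norm_sub_one_lt_of_pow (a := a) ?_)
      show embA p _ ^ _ = 1
      rw [← map_pow, ← map_one (embA p)]
      exact congrArg _ (Subtype.ext (pow_char_eq_one hord (Ne.isUnit hx)))
  have hone₁ : χ₁ 1 = 1 := by
    simp only [χ₁, impr, map_one, one_ne_zero, if_false, intChar_one]
  have hmul₁ : ∀ x y, χ₁ (x * y) = χ₁ x * χ₁ y := fun x y => by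
    simp only [χ₁, impr, map_mul, mul_eq_zero]
    by_cases hx : ZMod.castHom (dvd_mul_left ℓ d) (ZMod ℓ) x = 0
    · rw [if_pos (Or.inl hx), if_pos hx, zero_mul]
    by_cases hy : ZMod.castHom (dvd_mul_left ℓ d) (ZMod ℓ) y = 0
    · rw [if_pos (Or.inr hy), if_pos hy, mul_zero]
    rw [if_neg (by rintro (h | h) <;> contradiction), if_neg hx, if_neg hy, intChar_mul]
  have hpar : Par ψ₁.primitiveCharacter u := par_primitive hu
  have hodd₁ : thetaO u ^ ((p - 1) / 2) * χ₁ (-1) = -1 := Subtype.ext (by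
    simp only [χ₁, impr, map_neg, map_one, neg_eq_zero, one_ne_zero, if_false]
    show theta u ^ ((p - 1) / 2) * (intChar p ψ₁.primitiveCharacter (-1) : PadicAlgCl p) = -1
    rw [mul_comm]
    exact hpar)
  have hodd₀ : thetaO u ^ ((p - 1) / 2) * intChar p χ₀ (-1) = -1 := Subtype.ext (by
    show theta u ^ ((p - 1) / 2) * embA p _ = -1
    rw [mul_comm, show (⟨χ₀ (-1), char_mem χ₀ (-1)⟩ : AlgNum) =
      ⟨ψ₁.primitiveCharacter (-1), char_mem _ _⟩ from Subtype.ext (by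
        show χ₀ (-1) = ψ₁.primitiveCharacter (-1)
        rw [combine_neg_one, neg_one_of_pow ((hp.out.odd_of_ne_two hp2).pow) hord, mul_one])]
    exact hpar)
  have hcop : (d * ℓ).Coprime p := Nat.Coprime.mul_left hd hlp
  obtain ⟨lam₀, hlam₀⟩ := exists_isLam hp2 hg hcop (intChar p χ₀) (intChar_one χ₀)
    (intChar_mul χ₀) u hodd₀
  obtain ⟨lam₁, hlam₁⟩ := exists_isLam hp2 hg hcop χ₁ hone₁ hmul₁ u hodd₁
  rw [lInt_eq (hasVal_of_isLam hp2 hg hcop hlam₀), hlam₀.congr hcong hlam₁]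
  -- the values of the imprimitive branch
  refine (hasVal_of_isLam hp2 hg hcop hlam₁).unique ?_
  have hL := hasVal_lVal hp2 hg hf ψ₁ hu
  rw [HasVal]
  filter_upwards [hL, Filter.eventually_gt_atTop v] with k hk hkv ζ hζ
  haveI : NeZero (p ^ (k + 1 + 1)) := ⟨pow_ne_zero _ hp.out.ne_zero⟩
  obtain ⟨t, -, ht⟩ := FA.IwasawaMinus.exists_pow_genUnit hg (k + 1)
    ((ZMod.isUnit_iff_coprime ℓ _).2 (hlp.pow_right _)).unit
  have ht' : (g : ZMod (p ^ (k + 1 + 1))) ^ t = (ℓ : ZMod (p ^ (k + 1 + 1))) := by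
    rw [← FA.IwasawaMinus.genUnit_val hg (k + 1), ← Units.val_pow_eq_pow_val, ht,
      IsUnit.unit_spec]
  have hη1 : theta u * ζ ≠ 1 := fun e => theta_mul_pow_ne_one u hζ (by rw [e, one_pow])
  have hη : (theta u * ζ) ^ ((p - 1) * p ^ (k + 1)) = 1 := by
    rw [mul_pow, pow_mul (theta u), theta_pow_card, one_pow, one_mul, mul_comm (p - 1), pow_mul,
      hζ.pow_eq_one, one_pow]
  set χ : ZMod d → PadicAlgCl p := fun a => (intChar p ψ₁.primitiveCharacter a : PadicAlgCl p)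
  have hχ₁ : (fun x => (χ₁ x : PadicAlgCl p)) = impr ℓ χ :=
    funext fun x => impr_map (intR p).subtype _ x
  have hval : χ (ℓ : ZMod d) = embA p ⟨ψ₁ (ℓ : ZMod f), char_mem ψ₁ _⟩ := by
    refine congrArg (embA p) (Subtype.ext ?_)
    show ψ₁.primitiveCharacter (ℓ : ZMod d) = ψ₁ (ℓ : ZMod f)
    obtain ⟨w, hw⟩ := (ZMod.isUnit_iff_coprime ℓ f).2 (Nat.coprime_comm.1 hfl)
    conv_rhs => rw [← hw, ← changeLevel_primitiveCharacter ψ₁, changeLevel_eq_cast_of_dvd, hw,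
      ← ZMod.castHom_apply (h := ψ₁.conductor_dvd_level) (R := ZMod ψ₁.conductor), map_natCast]
  have hif : (χ (ℓ : ZMod d) = 1) = (ψ₁ (ℓ : ZMod f) = 1) := by
    rw [hval, ← map_one (embA p), (embA p).injective.eq_iff, Subtype.ext_iff]
    rfl
  rw [hχ₁, bv_impr hd hlp hg χ (fun a b => by
      simp only [χ, intChar_mul]
      rfl) hη hη1 ht', norm_mul, hk ζ hζ,
    norm_euler hg hl.out.one_lt hv hv' hkv ht' u hζ (x := χ (ℓ : ZMod d)) (m := Nat.totient f) hφ
      (Or.inr ?_), zpow_add₀ (norm_sub_one_pos hζ).ne', mul_comm, if_congr (Iff.of_eq hif) rfl rfl]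
  · congr 1
    split_ifs
    · exact (zpow_natCast _ _).symm
    · simp
  · rw [hval, ← map_pow, ← map_one (embA p)]
    refine congrArg _ (Subtype.ext ?_)
    obtain ⟨w, hw⟩ := (ZMod.isUnit_iff_coprime ℓ f).2 (Nat.coprime_comm.1 hfl)
    rw [SubmonoidClass.coe_pow, OneMemClass.coe_one]
    show ψ₁ (ℓ : ZMod f) ^ _ = 1
    rw [← hw, ← map_pow, ← Units.val_pow_eq_pow_val, ZMod.pow_totient, Units.val_one, map_one]

end FA.KidaFormula
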