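import Fermat.Agent.KidaFormula.Count
import Fermat.Agent.KidaFormula.Field
import Fermat.Agent.KidaFormula.Twist

/-!
# Kida's formula

For `p ∤ f φ(f)`, a prime `ℓ` with `p^(v+1) ∥ ℓ - 1` and `p^a ∣ ℓ - 1`, the exponents of the
extensions of degree `p^a` inside `ℚ(ζ_{f ℓ p^(n+1)})` of `ℚ(ζ_{f p^(n+1)})` satisfy
`sumL (kidaSet) = p^a sumL (univ) + (p^a - 1) s`, `s` the number of branches trivial at `ℓ` times
`p^v` (`sumL_kidaSet`).
-/

set_option autoImplicit false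
set_option linter.unusedSectionVars false
set_option linter.style.haveILetI false

noncomputable section

open NumberField DirichletCharacter
open FA.IwasawaMinus (IsGen)
open FA.FerreroAbelian (leftPart coprime_level embA char_mem)
open scoped Classical

namespace FA.KidaFormula

variable {p : ℕ} [hp : Fact p.Prime] {g : ℕ} {f ℓ : ℕ} [NeZero f] [hl : Fact ℓ.Prime] [NeZero ℓ]

theorem combine_one_eq (hfl : f.Coprime ℓ) (ψ : DirichletCharacter ℂ f) :
    changeLevel (dvd_mul_right f ℓ) ψ = combine hfl ψ 1 := by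
  refine MulChar.ext fun w => ?_
  rw [combine_apply, changeLevel_eq_cast_of_dvd _ _ w,
    MulChar.one_apply (Prod.isUnit_iff.1 (w.isUnit.map (ZMod.chineseRemainder hfl))).2, mul_one,
    ← ZMod.castHom_apply (h := dvd_mul_right f ℓ) (R := ZMod f),
    ← ZMod.natCast_zmod_val (w : ZMod (f * ℓ))]
  simp only [map_natCast, Prod.fst_natCast]

/-- Adjoining the trivial character modulo `ℓ` keeps the exponent. -/
theorem lVal_combine_one (hfl : f.Coprime ℓ) (ψ : DirichletCharacter ℂ f) (u : (ZMod p)ˣ) :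
    lVal g u (combine hfl ψ 1) = lVal g u ψ := by
  haveI : NeZero ψ.conductor := ⟨ψ.conductor_ne_zero⟩
  refine FA.AbelianFE.primitive_unique (ψ.conductor_dvd_level.trans (dvd_mul_right f ℓ))
    ψ.primitiveCharacter_isPrimitive ?_ (lInt g u)
  rw [changeLevel_trans _ ψ.conductor_dvd_level (dvd_mul_right f ℓ), changeLevel_primitiveCharacter,
    combine_one_eq]

/-- The parity of a product with an even character. -/
theorem par_combine (hfl : f.Coprime ℓ) (ψ₁ : DirichletCharacter ℂ f)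
    {ψ₂ : DirichletCharacter ℂ ℓ} (h : ψ₂ (-1) = 1) (u : (ZMod p)ˣ) :
    Par (combine hfl ψ₁ ψ₂) u ↔ Par ψ₁ u := by
  unfold Par
  rw [show (intChar p (combine hfl ψ₁ ψ₂) (-1) : PadicAlgCl p) = intChar p ψ₁ (-1) from
    congrArg (embA p) (Subtype.ext (by
      show combine hfl ψ₁ ψ₂ (-1) = ψ₁ (-1)
      rw [combine_neg_one, h, mul_one]))]

/-- **Kida's formula for the exponents.** -/
theorem sumL_kidaSet (hp2 : p ≠ 2) (hg : IsGen p g) (hne : ℓ ≠ p) (hf : f.Coprime p)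
    (hfl : f.Coprime ℓ) (hφ : ¬ p ∣ Nat.totient f) {v : ℕ} (hv : p ^ (v + 1) ∣ ℓ - 1)
    (hv' : ¬ p ^ (v + 1 + 1) ∣ ℓ - 1) {a : ℕ} (ha : p ^ a ∣ ℓ - 1) :
    sumL g p (kidaSet p a hfl) =
      (p : ℤ) ^ a * sumL g p (Finset.univ : Finset (DirichletCharacter ℂ f)) +
      ((p : ℤ) ^ a - 1) *
        ((p ^ v * ((p - 1) / 2) * (Nat.totient f / orderOf (ℓ : ZMod f)) : ℕ) : ℤ) := by
  set T := Finset.univ.filter fun ψ : DirichletCharacter ℂ f => ψ (ℓ : ZMod f) = 1 with hT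
  have hTcard : Nat.totient f / orderOf (ℓ : ZMod f) = T.card := by
    refine Nat.div_eq_of_eq_mul_left (Nat.pos_of_ne_zero fun h0 => ?_)
      (card_trivial_mul_order hfl).symm
    have := card_trivial_mul_order (f := f) hfl
    rw [h0, mul_zero] at this
    exact (Nat.totient_pos.2 (NeZero.pos f)).ne this
  set C := Finset.univ.filter fun ψ : DirichletCharacter ℂ ℓ => ψ ^ p ^ a = 1 with hC
  have h1C : (1 : DirichletCharacter ℂ ℓ) ∈ C :=
    Finset.mem_filter.2 ⟨Finset.mem_univ _, one_pow _⟩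
  set A : DirichletCharacter ℂ f → ℤ := fun ψ =>
    ∑ u ∈ Finset.univ.filter (fun u : (ZMod p)ˣ => Par ψ u), lVal g u ψ with hA
  set B : DirichletCharacter ℂ f → ℤ := fun ψ =>
    if ψ (ℓ : ZMod f) = 1 then ((p ^ v * ((p - 1) / 2) : ℕ) : ℤ) else 0 with hB
  have hpair : ∀ ψ₁ : DirichletCharacter ℂ f, ∀ ψ₂ ∈ C,
      (∑ u ∈ Finset.univ.filter (fun u : (ZMod p)ˣ => Par (combine hfl ψ₁ ψ₂) u),
        lVal g u (combine hfl ψ₁ ψ₂)) = A ψ₁ + if ψ₂ = 1 then 0 else B ψ₁ := fun ψ₁ ψ₂ hψ₂ => by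
    have hord := (Finset.mem_filter.1 hψ₂).2
    have hev : ψ₂ (-1) = 1 := neg_one_of_pow ((hp.out.odd_of_ne_two hp2).pow) hord
    rw [Finset.filter_congr fun u _ => par_combine hfl ψ₁ hev u]
    by_cases h2 : ψ₂ = 1
    · simp only [h2, if_pos, lVal_combine_one, add_zero, hA]
    · rw [if_neg h2, hA, hB, Finset.sum_congr rfl (g := fun u => lVal g u ψ₁ +
          if ψ₁ (ℓ : ZMod f) = 1 then ((p ^ v : ℕ) : ℤ) else 0) fun u hu =>
        (lVal_combine hp2 hg hne hf hfl hφ hv hv' ψ₁ h2 hord (Finset.mem_filter.1 hu).2).trans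
          (by rw [Nat.cast_ite, Nat.cast_zero]),
        Finset.sum_add_distrib, Finset.sum_const, card_par hp2, nsmul_eq_mul]
      beta_reduce
      split_ifs <;> push_cast <;> ring
  have hsum : sumL g p (kidaSet p a hfl) =
      ∑ x ∈ (Finset.univ : Finset (DirichletCharacter ℂ f)) ×ˢ C,
        ∑ u ∈ Finset.univ.filter (fun u : (ZMod p)ˣ => Par (combine hfl x.1 x.2) u),
          lVal g u (combine hfl x.1 x.2) := by
    refine Finset.sum_nbij' (fun ψ => (leftPart hfl ψ, rightPart hfl ψ))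
      (fun x => combine hfl x.1 x.2) (fun ψ hψ => ?_) (fun x hx => ?_)
      (fun ψ _ => combine_parts hfl ψ) (fun x _ => ?_) fun ψ _ => ?_
    · exact Finset.mem_product.2 ⟨Finset.mem_univ _,
        Finset.mem_filter.2 ⟨Finset.mem_univ _, (Finset.mem_filter.1 hψ).2⟩⟩
    · refine Finset.mem_filter.2 ⟨Finset.mem_univ _, ?_⟩
      rw [rightPart_combine]
      exact (Finset.mem_filter.1 (Finset.mem_product.1 hx).2).2
    · rw [leftPart_combine, rightPart_combine]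
    · simp only [combine_parts]
  rw [hsum, Finset.sum_product, hTcard]
  have hone : ∀ ψ₁, (∑ ψ₂ ∈ C, ∑ u ∈ Finset.univ.filter
        (fun u : (ZMod p)ˣ => Par (combine hfl ψ₁ ψ₂) u), lVal g u (combine hfl ψ₁ ψ₂)) =
      (p : ℤ) ^ a * A ψ₁ + ((p : ℤ) ^ a - 1) * B ψ₁ := fun ψ₁ => by
    rw [Finset.sum_congr rfl (hpair ψ₁), Finset.sum_add_distrib, Finset.sum_const,
      ← Finset.add_sum_erase C _ h1C, if_pos rfl, zero_add,
      Finset.sum_congr rfl (g := fun _ => B ψ₁) fun ψ hψ => if_neg (Finset.ne_of_mem_erase hψ),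
      Finset.sum_const, Finset.card_erase_of_mem h1C, hC, card_kills ha, nsmul_eq_mul,
      nsmul_eq_mul, Nat.cast_sub (Nat.one_le_pow _ _ hp.out.pos)]
    push_cast
    ring
  rw [Finset.sum_congr rfl fun ψ₁ _ => hone ψ₁, Finset.sum_add_distrib, ← Finset.mul_sum,
    ← Finset.mul_sum, hB, ← Finset.sum_filter, ← hT, Finset.sum_const, nsmul_eq_mul, sumL]
  push_cast
  ring

/-- **The minus part in the extensions.** -/
theorem exists_kida_linear (hp2 : p ≠ 2) (hg : IsGen p g) (hfl : f.Coprime ℓ)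
    (hfp : f.Coprime p) (hlp : ℓ.Coprime p) {a : ℕ} (ha : p ^ a ∣ ℓ - 1) :
    ∃ (nu : ℤ) (n₀ : ℕ), ∀ n, n₀ ≤ n → ∀ (F : Type) [Field F] [NumberField F] [IsCMField F]
      (_ : F →ₐ[ℚ] CyclotomicField (f * ℓ * p ^ (n + 1)) ℚ) (ζ : F),
      IsPrimitiveRoot ζ (f * p ^ (n + 1)) →
      Module.finrank ℚ F = p ^ a * Nat.totient (f * p ^ (n + 1)) →
      (padicValNat p (classNumber F) : ℤ) = padicValNat p (classNumber (maximalRealSubfield F)) +
        (sumL g p (kidaSet p a hfl) + 1) * n + nu := by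
  have hM : (f * ℓ).Coprime p := Nat.Coprime.mul_left hfp hlp
  have hform : ∀ (n : ℕ) (F : Type) [Field F] [NumberField F] [IsCMField F]
      (_ : F →ₐ[ℚ] CyclotomicField (f * ℓ * p ^ (n + 1)) ℚ) (ζ : F),
      IsPrimitiveRoot ζ (f * p ^ (n + 1)) →
      Module.finrank ℚ F = p ^ a * Nat.totient (f * p ^ (n + 1)) →
      (p : ℝ)⁻¹ ^ padicValNat p (classNumber F) =
        (p : ℝ)⁻¹ ^ (padicValNat p (classNumber (maximalRealSubfield F)) + (n + 1)) *
          szS hM (kidaSet p a hfl) n := fun n F _ _ _ ι ζ hζ hdeg => by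
    haveI : NeZero (p ^ (n + 1)) := ⟨pow_ne_zero _ hp.out.ne_zero⟩
    haveI : NeZero (f * ℓ * p ^ (n + 1)) := neZero_prod
    haveI : NeZero ((f * ℓ * p ^ (n + 1) : ℕ) : ℚ) := ⟨Nat.cast_ne_zero.2 (NeZero.ne _)⟩
    let K := CyclotomicField (f * ℓ * p ^ (n + 1)) ℚ
    haveI : IsCyclotomicExtension {f * ℓ * p ^ (n + 1)} ℚ K :=
      CyclotomicField.isCyclotomicExtension _ ℚ
    haveI : NumberField K := IsCyclotomicExtension.numberField {f * ℓ * p ^ (n + 1)} ℚ K
    haveI : IsAbelianGalois ℚ K :=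
      IsCyclotomicExtension.isAbelianGalois {f * ℓ * p ^ (n + 1)} ℚ K
    rw [classNumber_eq_szS hp2 hM (kidaSet p a hfl) n K F ι fun χ _ =>
        fieldChars_iff hfl hfp hlp K F ι hζ hdeg χ,
      torsionOrder_eq hp2 hM n K F ι (hζ.pow (Nat.mul_pos (NeZero.pos f) (NeZero.pos _)) rfl)]
  obtain ⟨nu, n₀, hnu⟩ := exists_linear hp2 hg hM (kidaSet p a hfl) fun n => by
    obtain ⟨F, _, _, _, ι, ζ, hζ, hdeg⟩ := exists_field hfl hfp hlp hp2 ha n
    exact exists_szS_eq_zpow (hform n F ι ζ hζ hdeg)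
  exact ⟨nu + 1, n₀, fun n hn F _ _ _ ι ζ hζ hdeg =>
    classNumber_linear (hform n F ι ζ hζ hdeg) (hnu n hn)⟩

end FA.KidaFormula
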