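import Fermat.Agent.KidaFormula.Main
import Mathlib.NumberTheory.LSeries.PrimesInAP

/-!
# Unbounded `λ`-invariants

By Dirichlet's theorem `p ^ v` is unbounded, so by Kida's formula the `λ`-invariants of the
extensions of degree `p` of the fields `ℚ(ζ_{p^(n+1)})` are unbounded (`exists_lambda_ge`).
-/

set_option autoImplicit false
set_option linter.unusedSectionVars false
set_option linter.style.haveILetI false

noncomputable section

open NumberField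

namespace FA.KidaFormula

variable {p : ℕ} [hp : Fact p.Prime]

theorem nonempty_algHom_of_eq {a b : ℕ} (h : a = b) {F : Type} [Field F] [Algebra ℚ F]
    (ι : F →ₐ[ℚ] CyclotomicField a ℚ) : Nonempty (F →ₐ[ℚ] CyclotomicField b ℚ) := by
  subst h
  exact ⟨ι⟩

/-- A prime `ℓ ≡ 1` modulo a high power of `p`. -/
theorem exists_prime_high (N : ℕ) : ∃ ℓ v : ℕ, ℓ.Prime ∧ ℓ ≠ p ∧ N ≤ v ∧
    p ^ (v + 1) ∣ ℓ - 1 ∧ ¬ p ^ (v + 1 + 1) ∣ ℓ - 1 := by
  haveI : NeZero (p ^ (N + 1)) := ⟨pow_ne_zero _ hp.out.ne_zero⟩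
  obtain ⟨ℓ, hgt, hℓ, hmod⟩ :=
    Nat.forall_exists_prime_gt_and_eq_mod (q := p ^ (N + 1)) (a := 1) isUnit_one p
  have hdvd : p ^ (N + 1) ∣ ℓ - 1 := by
    rw [← ZMod.natCast_eq_zero_iff, Nat.cast_sub hℓ.one_lt.le, Nat.cast_one, hmod, sub_self]
  have h0 : ℓ - 1 ≠ 0 := Nat.sub_ne_zero_of_lt hℓ.one_lt
  have h1 : N + 1 ≤ padicValNat p (ℓ - 1) := (padicValNat_dvd_iff_le h0).1 hdvd
  refine ⟨ℓ, padicValNat p (ℓ - 1) - 1, hℓ, hgt.ne', by omega, ?_, ?_⟩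
  · rw [Nat.sub_add_cancel (by omega)]
    exact pow_padicValNat_dvd
  · rw [Nat.sub_add_cancel (by omega)]
    exact pow_succ_padicValNat_not_dvd h0

/-- **The `λ`-invariants of extensions of degree `p` are unbounded.** -/
theorem exists_lambda_ge (hp2 : p ≠ 2) (B : ℤ) :
    ∃ (ℓ : ℕ) (lam nu : ℤ) (n₀ : ℕ), ℓ.Prime ∧ B ≤ lam ∧ ∀ n, n₀ ≤ n →
      ∃ (F : Type) (_ : Field F) (_ : NumberField F) (_ : IsCMField F)
        (_ : F →ₐ[ℚ] CyclotomicField (ℓ * p ^ (n + 1)) ℚ),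
        Module.finrank ℚ F = p * Nat.totient (p ^ (n + 1)) ∧
        (padicValNat p (classNumber F) : ℤ) =
          padicValNat p (classNumber (maximalRealSubfield F)) + lam * n + nu := by
  obtain ⟨g, hg⟩ := FA.IwasawaMinus.exists_isGen (p := p) hp2
  set L := sumL g p (Finset.univ : Finset (DirichletCharacter ℂ 1))
  obtain ⟨ℓ, v, hℓ, hne, hv0, hv, hv'⟩ := exists_prime_high (p := p) (B - (p : ℤ) * L - 1).natAbs
  haveI : Fact ℓ.Prime := ⟨hℓ⟩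
  haveI : NeZero ℓ := ⟨hℓ.ne_zero⟩
  have hlp : ℓ.Coprime p := (Nat.coprime_primes hℓ hp.out).2 hne
  have h1l : Nat.Coprime 1 ℓ := Nat.coprime_one_left ℓ
  have h1p : Nat.Coprime 1 p := Nat.coprime_one_left p
  have ha : p ^ 1 ∣ ℓ - 1 := (pow_dvd_pow p (Nat.le_add_left 1 v)).trans hv
  obtain ⟨nu, n₀, hlin⟩ := exists_kida_linear hp2 hg h1l h1p hlp ha
  refine ⟨ℓ, sumL g p (kidaSet p 1 h1l) + 1, nu, n₀, hℓ, ?_, fun n hn => ?_⟩
  · rw [sumL_kidaSet hp2 hg hne h1p h1l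
      (by rw [Nat.totient_one]; exact fun h => hp.out.ne_one (Nat.dvd_one.1 h)) hv hv' ha,
      Nat.totient_one, Subsingleton.elim (ℓ : ZMod 1) 1, orderOf_one, pow_one, Nat.div_self one_pos,
      mul_one]
    have h3 : 3 ≤ p := lt_of_le_of_ne hp.out.two_le (Ne.symm hp2)
    have h4 : (B - (p : ℤ) * L - 1).natAbs ≤ p ^ v * ((p - 1) / 2) :=
      (hv0.trans (Nat.lt_pow_self hp.out.one_lt).le).trans (Nat.le_mul_of_pos_right _ (by omega))
    have h5 : ((p ^ v * ((p - 1) / 2) : ℕ) : ℤ) ≤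
        ((p : ℤ) - 1) * ((p ^ v * ((p - 1) / 2) : ℕ) : ℤ) :=
      le_mul_of_one_le_left (Nat.cast_nonneg _) (by omega)
    linarith [(B - (p : ℤ) * L - 1).le_natAbs, (Int.ofNat_le.2 h4)]
  · obtain ⟨F, iF, iN, iC, ι, ζ, hζ, hdeg⟩ := exists_field h1l h1p hlp hp2 ha n
    have h := hlin n hn F ι ζ hζ hdeg
    obtain ⟨ι'⟩ := nonempty_algHom_of_eq (b := ℓ * p ^ (n + 1)) (by rw [one_mul]) ι
    exact ⟨F, iF, iN, iC, ι', by rw [hdeg, pow_one, one_mul], h⟩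

end FA.KidaFormula
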